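import Mathlib.NumberTheory.ArithmeticFunction.Misc
import Mathlib.Tactic.Ring
import Mathlib.Tactic.Linarith

/-!
The divisor sum `σ'(n)`: sum of the divisors of `n` prime to `p`.
-/

set_option autoImplicit false

namespace FLTAgent.EisIndex

open Finset

/-- Sum of the divisors of `n` not divisible by `p`. -/
def sigP (p n : ℕ) : ℕ := ∑ d ∈ n.divisors.filter (fun d ↦ ¬ p ∣ d), d

/-- Recursion at a prime for sums of completely multiplicative functions over divisors. -/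
theorem sum_divisors_mul_prime {R : Type*} [CommRing R] (f : ℕ → R)
    (hf : ∀ a b, f (a * b) = f a * f b) {ℓ n : ℕ} (hℓ : ℓ.Prime) (hn : n ≠ 0) :
    ∑ d ∈ (n * ℓ).divisors, f d + (if ℓ ∣ n then f ℓ * ∑ d ∈ (n / ℓ).divisors, f d else 0) =
      (1 + f ℓ) * ∑ d ∈ n.divisors, f d := by
  classical
  have hinj : Function.Injective fun d : ℕ ↦ ℓ * d := mul_right_injective₀ hℓ.ne_zero
  have hU : (n * ℓ).divisors = n.divisors ∪ n.divisors.image (fun d ↦ ℓ * d) := by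
    ext d
    simp only [Nat.mem_divisors, mem_union, mem_image]
    constructor
    · rintro ⟨hd, -⟩
      by_cases h : ℓ ∣ d
      · obtain ⟨e, rfl⟩ := h
        rw [mul_comm n ℓ] at hd
        exact Or.inr ⟨e, ⟨(Nat.mul_dvd_mul_iff_left hℓ.pos).1 hd, hn⟩, rfl⟩
      · exact Or.inl ⟨(Nat.Coprime.dvd_of_dvd_mul_right
          (Nat.coprime_comm.1 (hℓ.coprime_iff_not_dvd.2 h)) hd), hn⟩
    · rintro (⟨hd, -⟩ | ⟨e, ⟨he, -⟩, rfl⟩)
      · exact ⟨hd.mul_right ℓ, mul_ne_zero hn hℓ.ne_zero⟩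
      · exact ⟨by rw [mul_comm n ℓ]; exact Nat.mul_dvd_mul_left ℓ he, mul_ne_zero hn hℓ.ne_zero⟩
  have hI : (∑ d ∈ n.divisors ∩ n.divisors.image (fun d ↦ ℓ * d), f d) =
      if ℓ ∣ n then f ℓ * ∑ d ∈ (n / ℓ).divisors, f d else 0 := by
    split_ifs with h
    · obtain ⟨m, rfl⟩ := h
      have hm : m ≠ 0 := right_ne_zero_of_mul hn
      rw [Nat.mul_div_cancel_left m hℓ.pos]
      have e : (ℓ * m).divisors ∩ (ℓ * m).divisors.image (fun d ↦ ℓ * d) =
          m.divisors.image (fun d ↦ ℓ * d) := by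
        ext d
        simp only [Nat.mem_divisors, mem_inter, mem_image]
        constructor
        · rintro ⟨⟨hd, -⟩, e, -, rfl⟩
          exact ⟨e, ⟨(Nat.mul_dvd_mul_iff_left hℓ.pos).1 hd, hm⟩, rfl⟩
        · rintro ⟨e, ⟨he, -⟩, rfl⟩
          exact ⟨⟨Nat.mul_dvd_mul_left ℓ he, hn⟩, e, ⟨he.mul_left ℓ, hn⟩, rfl⟩
      rw [e, Finset.sum_image hinj.injOn, Finset.mul_sum]
      exact Finset.sum_congr rfl fun d _ ↦ hf ℓ d
    · refine Finset.sum_eq_zero fun d hd ↦ ?_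
      simp only [Nat.mem_divisors, mem_inter, mem_image] at hd
      obtain ⟨⟨hd, -⟩, e, -, rfl⟩ := hd
      exact absurd ((dvd_mul_right ℓ e).trans hd) h
  have key := Finset.sum_union_inter (s₁ := n.divisors) (s₂ := n.divisors.image fun d ↦ ℓ * d)
    (f := f)
  rw [← hU, hI, Finset.sum_image hinj.injOn] at key
  rw [key, add_mul, one_mul, Finset.mul_sum]
  exact congrArg _ (Finset.sum_congr rfl fun d _ ↦ hf ℓ d)

variable {p : ℕ}

theorem sigP_eq_sum (p n : ℕ) :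
    (sigP p n : ℤ) = ∑ d ∈ n.divisors, if p ∣ d then 0 else (d : ℤ) := by
  rw [sigP, Nat.cast_sum, Finset.sum_filter]
  refine Finset.sum_congr rfl fun d _ ↦ ?_
  by_cases h : p ∣ d <;> simp [h]

theorem sigP_mul_prime (hp : p.Prime) {ℓ n : ℕ} (hℓ : ℓ.Prime) (hn : n ≠ 0) :
    (sigP p (n * ℓ) : ℤ) + (if ℓ ∣ n ∧ ℓ ≠ p then (ℓ : ℤ) * sigP p (n / ℓ) else 0) =
      (if ℓ = p then 1 else 1 + (ℓ : ℤ)) * sigP p n := by
  have h := sum_divisors_mul_prime (fun d ↦ if p ∣ d then (0 : ℤ) else (d : ℤ))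
    (fun a b ↦ by by_cases ha : p ∣ a <;> by_cases hb : p ∣ b <;> simp [hp.dvd_mul, ha, hb])
    hℓ hn
  simp only [← sigP_eq_sum] at h
  rcases eq_or_ne ℓ p with rfl | hne
  · simpa using h
  · have : ¬ p ∣ ℓ := fun h ↦ hne ((Nat.prime_dvd_prime_iff_eq hp hℓ).1 h).symm
    simpa [this, hne] using h

theorem sigP_one (hp : p.Prime) : sigP p 1 = 1 := by
  simp [sigP, Finset.filter_singleton, hp.ne_one]

theorem sigP_mul_self (hp : p.Prime) {n : ℕ} (hn : n ≠ 0) : sigP p (n * p) = sigP p n := by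
  have h := sigP_mul_prime hp hp hn
  simp only [ne_eq, not_true, and_false, if_false, add_zero, if_true, one_mul] at h
  exact_mod_cast h

theorem sigP_prime (hp : p.Prime) {ℓ : ℕ} (hℓ : ℓ.Prime) (hne : ℓ ≠ p) :
    sigP p ℓ = 1 + ℓ := by
  have h := sigP_mul_prime hp hℓ one_ne_zero
  simp only [one_mul, sigP_one hp, hne, if_false, Nat.cast_one, mul_one,
    Nat.dvd_one, hℓ.ne_one, false_and, add_zero] at h
  exact_mod_cast h

open ArithmeticFunction in
open scoped ArithmeticFunction.sigma in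
theorem sigma_one_eq_sigP_add {n : ℕ} (hp : p.Prime) (hn : n ≠ 0) :
    (σ 1 n : ℤ) = sigP p n + if p ∣ n then (p : ℤ) * σ 1 (n / p) else 0 := by
  classical
  rw [sigma_one_apply, sigP, ← Finset.sum_filter_add_sum_filter_not n.divisors (fun d ↦ ¬ p ∣ d),
    Nat.cast_add]
  congr 1
  split_ifs with h
  · obtain ⟨m, rfl⟩ := h
    rw [Nat.mul_div_cancel_left m hp.pos, sigma_one_apply]
    have e : (p * m).divisors.filter (fun d ↦ ¬¬ p ∣ d) = m.divisors.image (fun d ↦ p * d) := by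
      ext d
      simp only [Finset.mem_filter, Nat.mem_divisors, mem_image, not_not]
      constructor
      · rintro ⟨⟨hd, -⟩, e, rfl⟩
        exact ⟨e, ⟨(Nat.mul_dvd_mul_iff_left hp.pos).1 hd, right_ne_zero_of_mul hn⟩, rfl⟩
      · rintro ⟨e, ⟨he, -⟩, rfl⟩
        exact ⟨⟨Nat.mul_dvd_mul_left p he, hn⟩, dvd_mul_right p e⟩
    rw [e, Finset.sum_image (mul_right_injective₀ hp.ne_zero).injOn]
    push_cast
    rw [Finset.mul_sum]
  · rw [Nat.cast_eq_zero]
    refine Finset.sum_eq_zero fun d hd ↦ ?_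
    simp only [Finset.mem_filter, Nat.mem_divisors, not_not] at hd
    exact absurd (hd.2.trans hd.1.1) h

end FLTAgent.EisIndex
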