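import Fermat.Agent.Quick.CuspCoeff
import Fermat.Agent.EisIndex.SigmaPrime
import Fermat.Prelude.Def_CuspForm_HeckeLocal
import Fermat.Prelude.Def_CuspForm_HeckeEvalForms
import Fermat.Prelude.Def_HeckeGalois_EichlerShimura

/-!
The action of the polynomial Hecke algebra on cusp forms of weight two with integral coefficients,
and the duality between the Hecke algebra of the lattice and the lattice.
-/

set_option autoImplicit false

noncomputable section

namespace FLTAgent.EisIndex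

open CongruenceSubgroup ModularFormClass ModularCurve

variable (p : ℕ) [Fact p.Prime]

/-- The map from Hecke polynomials to the algebra of the lattice. -/
def heckePhi : HeckeAlg →+* ↥(CuspForm.heckeLatticeAlgebra p ∅) :=
  (CuspForm.latticeRestrictHom p ∅).toRingHom.comp (CuspForm.heckeEvalForms p 2)

/-- The system `T_ℓ ↦ 1 + ℓ`, `U_p ↦ 1`. -/
def evalEis : HeckeAlg →+* ℤ := (MvPolynomial.aeval (R := ℤ) (eisensteinSystem p)).toRingHom

/-- The action on the lattice. -/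
def act (P : HeckeAlg) : Module.End ℤ ↥(CuspForm.intLattice p 2) := (heckePhi p P).1

/-- The integral coefficient. -/
def coefZ (g : ↥(CuspForm.intLattice p 2)) (n : ℕ) : ℤ :=
  (Quick.mem_intLattice_iff.1 g.2 n).choose

variable {p}

theorem qCoeff_eq_coefZ (g : ↥(CuspForm.intLattice p 2)) (n : ℕ) :
    qCoeff ⇑(g : CuspForm (Gamma0 p) 2) n = (coefZ p g n : ℂ) :=
  (Quick.mem_intLattice_iff.1 g.2 n).choose_spec

theorem coefZ_zero_index (g : ↥(CuspForm.intLattice p 2)) : coefZ p g 0 = 0 := by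
  apply Int.cast_injective (α := ℂ)
  rw [← qCoeff_eq_coefZ, Quick.qCoeff_zero_index, Int.cast_zero]

/-- The coefficient as a linear functional. -/
def coefLin (p : ℕ) [Fact p.Prime] (n : ℕ) : ↥(CuspForm.intLattice p 2) →ₗ[ℤ] ℤ where
  toFun g := coefZ p g n
  map_add' g h := by
    apply Int.cast_injective (α := ℂ)
    push_cast
    rw [← qCoeff_eq_coefZ, ← qCoeff_eq_coefZ, ← qCoeff_eq_coefZ, ← Quick.qCoeff_add']
    rfl
  map_smul' c g := by
    apply Int.cast_injective (α := ℂ)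
    simp only [RingHom.id_apply, smul_eq_mul, Int.cast_mul]
    rw [← qCoeff_eq_coefZ, ← qCoeff_eq_coefZ, ← Quick.qCoeff_zsmul']
    rfl

theorem heckeEvalForms_surjective : Function.Surjective (CuspForm.heckeEvalForms p 2) := by
  rintro ⟨t, ht⟩
  suffices ∃ P, (CuspForm.heckeEvalForms p 2 P : Module.End ℂ (CuspForm (Gamma0 p) 2)) = t by
    obtain ⟨P, hP⟩ := this
    exact ⟨P, Subtype.ext hP⟩
  induction ht using Algebra.adjoin_induction with
  | mem x hx =>
    rcases hx with ⟨ℓ, hℓ, hℓN, -, rfl⟩ | ⟨q, hqN, hq, -, rfl⟩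
    · exact ⟨heckeGen ⟨ℓ, hℓ⟩, by
        rw [CuspForm.heckeEvalForms_heckeGen_of_not_dvd (ℓ := ⟨ℓ, hℓ⟩) hℓN]; rfl⟩
    · exact ⟨heckeGen ⟨q, hq⟩, by
        rw [CuspForm.heckeEvalForms_heckeGen_of_dvd (q := ⟨q, hq⟩) hqN]; rfl⟩
  | algebraMap r => exact ⟨MvPolynomial.C r, by rw [CuspForm.heckeEvalForms_C]; rfl⟩
  | add x y _ _ hx hy =>
    obtain ⟨P, hP⟩ := hx
    obtain ⟨Q, hQ⟩ := hy
    exact ⟨P + Q, by rw [map_add, ← hP, ← hQ]; rfl⟩
  | mul x y _ _ hx hy =>
    obtain ⟨P, hP⟩ := hx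
    obtain ⟨Q, hQ⟩ := hy
    exact ⟨P * Q, by rw [map_mul, ← hP, ← hQ]; rfl⟩

theorem heckePhi_surjective : Function.Surjective (heckePhi p) :=
  (CuspForm.latticeRestrictHom_surjective p ∅).comp heckeEvalForms_surjective

theorem act_mul (P Q : HeckeAlg) (g : ↥(CuspForm.intLattice p 2)) :
    act p (P * Q) g = act p P (act p Q g) := by
  simp [act, Module.End.mul_apply]

theorem act_add (P Q : HeckeAlg) (g : ↥(CuspForm.intLattice p 2)) :
    act p (P + Q) g = act p P g + act p Q g := by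
  simp [act]

theorem act_C (a : ℤ) (g : ↥(CuspForm.intLattice p 2)) :
    act p (MvPolynomial.C a) g = a • g := by
  rw [← Int.cast_id (n := a), map_intCast]
  simp [act]

theorem coe_act (P : HeckeAlg) (g : ↥(CuspForm.intLattice p 2)) :
    (act p P g : CuspForm (Gamma0 p) 2) =
      (CuspForm.heckeEvalForms p 2 P : Module.End ℂ (CuspForm (Gamma0 p) 2)) g := rfl

theorem coefZ_act_X (ℓ : Nat.Primes) (g : ↥(CuspForm.intLattice p 2)) (n : ℕ) :
    coefZ p (act p (MvPolynomial.X ℓ) g) n = coefZ p g (n * ℓ) +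
      if (ℓ : ℕ) ∣ n ∧ (ℓ : ℕ) ≠ p then (ℓ : ℤ) * coefZ p g (n / ℓ) else 0 := by
  have hp : p.Prime := Fact.out
  apply Int.cast_injective (α := ℂ)
  rw [← qCoeff_eq_coefZ, coe_act, show MvPolynomial.X ℓ = heckeGen ℓ from rfl]
  by_cases hd : (ℓ : ℕ) ∣ p
  · have he : (ℓ : ℕ) = p := (Nat.prime_dvd_prime_iff_eq ℓ.2 hp).1 hd
    rw [CuspForm.heckeEvalForms_heckeGen_of_dvd hd, CuspForm.heckeAlgebra.coe_U,
      Quick.qCoeff_heckeULin ℓ.2 hd, qCoeff_eq_coefZ]
    simp [he]
  · have he : (ℓ : ℕ) ≠ p := fun h ↦ hd (h ▸ dvd_rfl)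
    rw [CuspForm.heckeEvalForms_heckeGen_of_not_dvd hd, CuspForm.heckeAlgebra.coe_T,
      Quick.qCoeff_heckeTLin ℓ.2 hd, qCoeff_eq_coefZ, qCoeff_eq_coefZ]
    simp only [he, ne_eq, not_false_eq_true, and_true]
    split_ifs <;> simp

theorem evalEis_X (ℓ : Nat.Primes) :
    evalEis p (MvPolynomial.X ℓ) = if (ℓ : ℕ) = p then 1 else 1 + (ℓ : ℤ) := by
  have hp : p.Prime := Fact.out
  simp only [evalEis, AlgHom.toRingHom_eq_coe, RingHom.coe_coe, MvPolynomial.aeval_X]
  by_cases he : (ℓ : ℕ) = p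
  · rw [eisensteinSystem_of_dvd (he ▸ dvd_rfl), if_pos he]
  · rw [eisensteinSystem_of_not_dvd fun h ↦ he ((Nat.prime_dvd_prime_iff_eq ℓ.2 hp).1 h), if_neg he]

theorem evalEis_C (a : ℤ) : evalEis p (MvPolynomial.C a) = a := by
  simp [evalEis]

/-- Each coefficient is the first coefficient after applying a Hecke polynomial. -/
theorem exists_word (k : ℕ) : k ≠ 0 → ∃ P : HeckeAlg,
    evalEis p P = (sigP p k : ℤ) ∧ ∀ g, coefZ p (act p P g) 1 = coefZ p g k := by
  induction k using Nat.strong_induction_on with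
  | _ k ih =>
    intro hk
    rcases eq_or_ne k 1 with rfl | h1
    · exact ⟨1, by simp [sigP_one Fact.out], fun g ↦ by simp [act]⟩
    · obtain ⟨ℓ, hℓ, m, rfl⟩ := Nat.exists_prime_and_dvd h1
      have hm : m ≠ 0 := right_ne_zero_of_mul hk
      have hlt : m < ℓ * m := lt_mul_left (Nat.pos_of_ne_zero hm) hℓ.one_lt
      obtain ⟨P, hP, hPg⟩ := ih m hlt hm
      have hrec := sigP_mul_prime (p := p) Fact.out hℓ hm
      obtain ⟨L, hL⟩ : ∃ L : Nat.Primes, (L : ℕ) = ℓ := ⟨⟨ℓ, hℓ⟩, rfl⟩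
      by_cases hc : ℓ ∣ m ∧ ℓ ≠ p
      · have hm' : m / ℓ ≠ 0 :=
          Nat.div_ne_zero_iff.2 ⟨hℓ.ne_zero, Nat.le_of_dvd (Nat.pos_of_ne_zero hm) hc.1⟩
        obtain ⟨Q, hQ, hQg⟩ := ih (m / ℓ) ((Nat.div_le_self m ℓ).trans_lt hlt) hm'
        refine ⟨P * MvPolynomial.X L + MvPolynomial.C (-(ℓ : ℤ)) * Q, ?_, fun g ↦ ?_⟩
        · rw [if_pos hc] at hrec
          rw [mul_comm ℓ m, map_add, map_mul, map_mul, hP, hQ, evalEis_X, evalEis_C, hL]
          linear_combination -hrec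
        · rw [act_add, act_mul, act_mul, act_C, coefZ, mul_comm ℓ m]
          show coefLin p 1 (_ + _) = _
          rw [map_add, map_smul]
          show coefZ p _ 1 + (-(ℓ : ℤ)) * coefZ p _ 1 = _
          rw [hPg, hQg, coefZ_act_X, hL]
          simp only [hc.1, hc.2, ne_eq, not_false_eq_true, and_self, if_true]
          ring
      · refine ⟨P * MvPolynomial.X L, ?_, fun g ↦ ?_⟩
        · rw [if_neg hc, add_zero] at hrec
          rw [mul_comm ℓ m, map_mul, hP, evalEis_X, hL, hrec]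
          ring
        · rw [act_mul, hPg, coefZ_act_X, hL, if_neg hc, add_zero,
            mul_comm ℓ m]

theorem eq_zero_of_coefZ {g : ↥(CuspForm.intLattice p 2)}
    (h : ∀ k, k ≠ 0 → coefZ p g k = 0) : g = 0 := by
  refine Subtype.ext (Quick.eq_zero_of_qCoeff_eq_zero fun k ↦ ?_)
  rcases eq_or_ne k 0 with rfl | hk
  · exact Quick.qCoeff_zero_index _
  · rw [qCoeff_eq_coefZ, h k hk, Int.cast_zero]

/-- The pairing of the lattice with the Hecke algebra. -/
def pairing (p : ℕ) [Fact p.Prime] :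
    ↥(CuspForm.intLattice p 2) →ₗ[ℤ] (↥(CuspForm.heckeLatticeAlgebra p ∅) →ₗ[ℤ] ℤ) :=
  LinearMap.mk₂ ℤ (fun g t ↦ coefLin p 1 (t.1 g))
    (fun g h t ↦ by simp) (fun c g t ↦ by simp) (fun g t u ↦ by simp) (fun c g t ↦ by simp)

theorem pairing_apply (g : ↥(CuspForm.intLattice p 2)) (P : HeckeAlg) :
    pairing p g (heckePhi p P) = coefZ p (act p P g) 1 := rfl

theorem pairing_injective : Function.Injective (pairing p) := by
  refine (injective_iff_map_eq_zero _).2 fun g hg ↦ eq_zero_of_coefZ fun k hk ↦ ?_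
  obtain ⟨P, -, hP⟩ := exists_word (p := p) k hk
  rw [← hP, ← pairing_apply, hg, LinearMap.zero_apply]

theorem pairing_flip_injective : Function.Injective (pairing p).flip := by
  refine (injective_iff_map_eq_zero _).2 fun t ht ↦ Subtype.ext (LinearMap.ext fun g ↦ ?_)
  refine eq_zero_of_coefZ fun k hk ↦ ?_
  obtain ⟨P, -, hP⟩ := exists_word (p := p) k hk
  rw [← hP]
  have hc : act p P (t.1 g) = t.1 (act p P g) := by
    have h := congrArg (fun x : ↥(CuspForm.heckeLatticeAlgebra p ∅) ↦ x.1 g)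
      (mul_comm (heckePhi p P) t)
    simpa [act, Module.End.mul_apply] using h
  rw [hc]
  exact LinearMap.congr_fun ht (act p P g)

/-- An injective pairing of lattices, injective on both sides and saturated, is perfect. -/
theorem surjective_of_saturated {T M : Type*} [AddCommGroup T] [AddCommGroup M]
    [Module.Free ℤ T] [Module.Finite ℤ T] [Module.Free ℤ M] [Module.Finite ℤ M]
    (Ψ : M →ₗ[ℤ] T →ₗ[ℤ] ℤ) (hinj : Function.Injective Ψ) (hflip : Function.Injective Ψ.flip)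
    (hsat : ∀ (g : M) (N : ℤ) (α : T →ₗ[ℤ] ℤ), N ≠ 0 → Ψ g = N • α → ∃ g', Ψ g' = α) :
    Function.Surjective Ψ := by
  intro α
  have h1 : Module.finrank ℤ T ≤ Module.finrank ℤ M :=
    (LinearMap.finrank_le_finrank_of_injective hflip).trans_eq (Module.finrank_linearMap_self ℤ ℤ M)
  have hR : Module.finrank ℤ (LinearMap.range Ψ) = Module.finrank ℤ M :=
    LinearMap.finrank_range_of_inj hinj
  have hq : Module.finrank ℤ ((T →ₗ[ℤ] ℤ) ⧸ LinearMap.range Ψ) = 0 := by
    have h := (LinearMap.range Ψ).finrank_quotient_add_finrank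
    have h2 : Module.finrank ℤ (T →ₗ[ℤ] ℤ) = Module.finrank ℤ T := (Module.finrank_linearMap_self ℤ ℤ T)
    omega
  obtain ⟨N, hN, hNα⟩ := Module.finrank_eq_zero_iff.1 hq (Submodule.Quotient.mk α)
  rw [← Submodule.Quotient.mk_smul, Submodule.Quotient.mk_eq_zero] at hNα
  obtain ⟨g, hg⟩ := hNα
  exact hsat g N α hN hg

theorem pairing_surjective : Function.Surjective (pairing p) := by
  haveI := CuspForm.intLattice.moduleFinite p
  haveI := CuspForm.intLattice.moduleFree p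
  refine surjective_of_saturated (pairing p) pairing_injective pairing_flip_injective
    fun g N α hN hg ↦ ?_
  have hdiv : (N : ℂ)⁻¹ • (g : CuspForm (Gamma0 p) 2) ∈ CuspForm.intLattice p 2 := by
    refine Quick.mem_intLattice_iff.2 fun k ↦ ?_
    rcases eq_or_ne k 0 with rfl | hk
    · exact ⟨0, by rw [Quick.qCoeff_zero_index, Int.cast_zero]⟩
    · obtain ⟨P, -, hP⟩ := exists_word (p := p) k hk
      refine ⟨α (heckePhi p P), ?_⟩
      have h3 : pairing p g (heckePhi p P) = N * α (heckePhi p P) := by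
        rw [hg]
        rfl
      rw [pairing_apply] at h3
      rw [Quick.qCoeff_smul', qCoeff_eq_coefZ, ← hP, h3, Int.cast_mul]
      exact inv_mul_cancel_left₀ (Int.cast_ne_zero.2 hN) _
  refine ⟨⟨_, hdiv⟩, ?_⟩
  have e : N • (⟨_, hdiv⟩ : ↥(CuspForm.intLattice p 2)) = g := by
    apply Subtype.ext
    show N • ((N : ℂ)⁻¹ • (g : CuspForm (Gamma0 p) 2)) = g
    exact (Int.cast_smul_eq_zsmul ℂ N _).symm.trans
      (smul_inv_smul₀ (Int.cast_ne_zero.2 hN) _)
  apply smul_right_injective _ hN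
  show N • pairing p ⟨_, hdiv⟩ = N • α
  exact (LinearMap.map_smul (pairing p) N _).symm.trans ((congrArg (pairing p) e).trans hg)

end FLTAgent.EisIndex
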