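import Fermat.Agent.EisIndex.Fricke
import Fermat.Agent.EisIndex.SigmaPrime
import Mathlib.NumberTheory.ModularForms.EisensteinSeries.E2.Transform
import Mathlib.NumberTheory.ModularForms.EisensteinSeries.E2.MDifferentiable

/-!
The weight two Eisenstein series `q E₂(q τ) - E₂(τ)` of prime level `q`, and dilations.
-/

set_option autoImplicit false

noncomputable section

namespace FLTAgent.EisIndex

open UpperHalfPlane hiding I
open Complex hiding eta
open Matrix.SpecialLinearGroup CongruenceSubgroup ModularGroup ModularForm EisensteinSeries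
open Filter
open scoped MatrixGroups ModularForm Manifold ArithmeticFunction.sigma Real Topology

variable {q : ℕ}

theorem tendsto_heckeDiag_atImInfty (hq : q ≠ 0) :
    Tendsto (fun τ : ℍ ↦ heckeDiagMatrix q • τ) atImInfty atImInfty := by
  rw [atImInfty, tendsto_comap_iff]
  have e : (UpperHalfPlane.im ∘ fun τ : ℍ ↦ heckeDiagMatrix q • τ) =
      fun τ : ℍ ↦ (q : ℝ) * τ.im := by
    funext τ
    show ((heckeDiagMatrix q • τ : ℍ) : ℂ).im = _
    rw [coe_heckeDiagMatrix_smul hq]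
    simp
  rw [e]
  exact tendsto_comap.const_mul_atTop (Nat.cast_pos.2 (Nat.pos_of_ne_zero hq))

theorem qParam_heckeDiag (hq : q ≠ 0) (τ : ℍ) :
    Function.Periodic.qParam 1 (heckeDiagMatrix q • τ : ℍ) =
      Function.Periodic.qParam 1 (τ : ℂ) ^ q := by
  simp only [Function.Periodic.qParam, ← Complex.exp_nat_mul, coe_heckeDiagMatrix_smul hq]
  congr 1
  ring

theorem comp_diag_mem (hq : q ≠ 0) {f : ℍ → ℂ} (hf : f ∈ qFnH 1)
    (hd : MDiff fun τ ↦ f (heckeDiagMatrix q • τ)) :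
    (fun τ ↦ f (heckeDiagMatrix q • τ)) ∈ qFnH 1 := by
  refine ⟨?_, hd, hf.2.2.comp_tendsto (tendsto_heckeDiag_atImInfty hq)⟩
  intro w
  rcases lt_or_ge 0 w.im with hw | hw
  · have hw' : 0 < (w + (1 : ℕ)).im := by simpa using hw
    simp only [Function.comp_apply, ofComplex_apply_of_im_pos hw, ofComplex_apply_of_im_pos hw']
    have h := hf.1.nat_mul q ((heckeDiagMatrix q • (⟨w, hw⟩ : ℍ) : ℍ) : ℂ)
    simp only [Function.comp_apply, ofComplex_apply] at h
    rw [← h]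
    have e : ((heckeDiagMatrix q • (⟨w, hw⟩ : ℍ) : ℍ) : ℂ) + (q : ℂ) * ((1 : ℕ) : ℂ) =
        ((heckeDiagMatrix q • (⟨w + (1 : ℕ), hw'⟩ : ℍ) : ℍ) : ℂ) := by
      simp only [coe_heckeDiagMatrix_smul hq]
      push_cast
      ring
    rw [e, ofComplex_apply]
  · have hw' : (w + (1 : ℕ)).im ≤ 0 := by simpa using hw
    simp only [Function.comp_apply, ofComplex_apply_of_im_nonpos hw,
      ofComplex_apply_of_im_nonpos hw']

theorem qExpansion_coeff_diag (hq : q ≠ 0) {f : ℍ → ℂ} (hf : f ∈ qFnH 1)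
    (hd : MDiff fun τ ↦ f (heckeDiagMatrix q • τ)) (n : ℕ) :
    (qExpansion 1 fun τ ↦ f (heckeDiagMatrix q • τ)).coeff n =
      if q ∣ n then (qExpansion 1 f).coeff (n / q) else 0 := by
  rw [← Nat.cast_one]
  refine qExpansion_coeff_eq (comp_diag_mem hq hf hd)
    (c := fun n ↦ if q ∣ n then (qExpansion ((1 : ℕ) : ℝ) f).coeff (n / q) else 0) (fun τ ↦ ?_) n
  have hinj : Function.Injective fun m : ℕ ↦ q * m := mul_right_injective₀ hq
  refine (hinj.hasSum_iff ?_).1 ?_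
  · intro m hm
    rw [if_neg (fun hd ↦ hm ⟨m / q, Nat.mul_div_cancel' hd⟩), zero_smul]
  · convert hasSum_one hf (heckeDiagMatrix q • τ) using 1
    funext m
    simp only [Function.comp_apply, dvd_mul_right, if_true,
      Nat.mul_div_cancel_left m (Nat.pos_of_ne_zero hq), qParam_heckeDiag hq, Nat.cast_one, pow_mul]

theorem heckeDiag_mul (hq : q ≠ 0) (γ : SL(2, ℤ)) (hγ : γ ∈ Gamma0 q) :
    ∃ γ' : SL(2, ℤ), (q : ℤ) * γ' 1 0 = γ 1 0 ∧ γ' 1 1 = γ 1 1 ∧
      heckeDiagMatrix q * (γ : GL (Fin 2) ℝ) = (γ' : GL (Fin 2) ℝ) * heckeDiagMatrix q := by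
  obtain ⟨c, hc⟩ := (ZMod.intCast_zmod_eq_zero_iff_dvd _ _).1 (Gamma0_mem.1 hγ)
  have hdet := Dim.col_relation γ
  let γ' : SL(2, ℤ) := ⟨!![γ 0 0, (q : ℤ) * γ 0 1; c, γ 1 1], by
    rw [Matrix.det_fin_two_of]
    rw [hc] at hdet
    linear_combination hdet⟩
  refine ⟨γ', by simp [γ', hc], by simp [γ'], ?_⟩
  apply Units.ext
  have hc' : ((γ 1 0 : ℤ) : ℝ) = (q : ℝ) * c := by exact_mod_cast hc
  have eg : ∀ (g : SL(2, ℤ)) (i j : Fin 2),
      ((g : GL (Fin 2) ℝ) : Matrix (Fin 2) (Fin 2) ℝ) i j = (g i j : ℝ) := fun _ _ _ ↦ rfl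
  ext i j
  rw [Units.val_mul, Units.val_mul, Matrix.mul_apply, Matrix.mul_apply]
  simp only [Fin.sum_univ_two, eg, val_heckeDiagMatrix hq]
  fin_cases i <;> fin_cases j <;> simp [γ', hc'] <;> ring

/-- The weight two Eisenstein series `q E₂(q τ) - E₂(τ)`. -/
def eisTwo (q : ℕ) : ℍ → ℂ := (E2 ∣[(2 : ℤ)] heckeDiagMatrix q) - E2

theorem D2_slash_diag (hq : q ≠ 0) {γ γ' : SL(2, ℤ)} (h1 : (q : ℤ) * γ' 1 0 = γ 1 0)
    (h2 : γ' 1 1 = γ 1 1) : D2 γ' ∣[(2 : ℤ)] heckeDiagMatrix q = D2 γ := by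
  funext τ
  rw [slash_heckeDiagMatrix_apply _ hq]
  simp only [D2, ModularGroup.denom_apply, coe_heckeDiagMatrix_smul hq]
  rw [← h1, ← h2]
  simp only [UpperHalfPlane.denom]
  norm_num
  ring_nf

theorem periodic_E2 : Function.Periodic (E2 ∘ ofComplex) 1 := by
  refine periodic_of_inv (p := 0) (k := 2) (f := E2) fun γ hγ ↦ ?_
  have h : γ 1 0 = 0 := by
    have := Gamma0_mem.1 hγ
    simpa using this
  rw [E2_slash_action]
  funext z
  simp [D2, h]

theorem mem_qFnH_E2 : (E2 : ℍ → ℂ) ∈ qFnH 1 :=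
  ⟨by simpa using periodic_E2, E2_mdifferentiable, isBoundedAtImInfty_E2⟩

theorem eisTwo_apply (hq : q ≠ 0) (τ : ℍ) :
    eisTwo q τ = (q : ℂ) * E2 (heckeDiagMatrix q • τ) - E2 τ := by
  rw [eisTwo, Pi.sub_apply, slash_heckeDiagMatrix_apply _ hq]
  simp

theorem mdiff_E2_diag (hq : q ≠ 0) : MDiff fun τ : ℍ ↦ E2 (heckeDiagMatrix q • τ) := by
  have e : (fun τ : ℍ ↦ E2 (heckeDiagMatrix q • τ)) =
      ((q : ℂ)⁻¹) • (E2 ∣[(2 : ℤ)] heckeDiagMatrix q) := by
    funext τ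
    rw [Pi.smul_apply, slash_heckeDiagMatrix_apply _ hq, smul_eq_mul, ← mul_assoc]
    simp [hq]
  rw [e]
  exact (MDifferentiable.slash E2_mdifferentiable 2 _).const_smul _

theorem eisTwo_mem (hq : q ≠ 0) : eisTwo q ∈ qFnH 1 := by
  have e : eisTwo q = (q : ℂ) • (fun τ ↦ E2 (heckeDiagMatrix q • τ)) - E2 := by
    funext τ; simp [eisTwo_apply hq]
  exact e ▸ (qFnH 1).sub_mem
    ((qFnH 1).smul_mem (comp_diag_mem hq mem_qFnH_E2 (mdiff_E2_diag hq)) _) mem_qFnH_E2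

theorem isMF_eisTwo [Fact q.Prime] : Dim.IsMF (Gamma0 q) 2 (eisTwo q) := by
  have hq : q ≠ 0 := (Fact.out : q.Prime).ne_zero
  refine isMF_gamma0_of_prime (eisTwo_mem hq).2.1 ?_ (eisTwo_mem hq).2.2 ?_
  · intro γ hγ
    obtain ⟨γ', h1, h2, e⟩ := heckeDiag_mul hq γ hγ
    have hslash : (E2 ∣[(2 : ℤ)] heckeDiagMatrix q) ∣[(2 : ℤ)] γ =
        (E2 ∣[(2 : ℤ)] γ') ∣[(2 : ℤ)] heckeDiagMatrix q := by
      rw [ModularForm.SL_slash, ← SlashAction.slash_mul, e, SlashAction.slash_mul,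
        ← ModularForm.SL_slash]
    have hσ : UpperHalfPlane.σ (heckeDiagMatrix q) = .refl ℝ ℂ := σ_heckeDiagMatrix q
    rw [eisTwo, sub_eq_add_neg, SlashAction.add_slash, SlashAction.neg_slash, hslash,
      E2_slash_action γ', E2_slash_action γ, sub_eq_add_neg, SlashAction.add_slash,
      SlashAction.neg_slash, ModularForm.smul_slash, hσ, D2_slash_diag hq h1 h2]
    simp only [ContinuousAlgEquiv.refl_apply]
    abel
  · have : NeZero q := ⟨hq⟩
    have e : eisTwo q ∣[(2 : ℤ)] S = fun τ ↦ (q : ℂ)⁻¹ * E2 (shiftDiv q 0 τ) - E2 τ := by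
      funext τ
      have hq' : (q : ℂ) ≠ 0 := Nat.cast_ne_zero.2 hq
      have hτ : (τ : ℂ) ≠ 0 := UpperHalfPlane.ne_zero τ
      have key : ∀ w : ℍ, E2 (S • w) = ((w : ℂ) ^ 2) *
          (E2 w - 1 / (2 * riemannZeta 2) * (2 * π * Complex.I / w)) := by
        intro w
        have := congrFun (E2_slash_action S) w
        rw [slash_S_two_apply, Pi.sub_apply, Pi.smul_apply, smul_eq_mul, D2_S] at this
        rw [← this]
        have hw : (w : ℂ) ≠ 0 := UpperHalfPlane.ne_zero w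
        field_simp
      rw [slash_S_two_apply, eisTwo_apply hq]
      have e : heckeDiagMatrix q • (S • τ) = S • shiftDiv q 0 τ := by
        ext
        rw [coe_heckeDiagMatrix_smul hq, coe_S_smul, coe_S_smul, coe_shiftDiv]
        push_cast
        rw [add_zero]
        field_simp
      rw [e, key, key, coe_shiftDiv]
      push_cast
      rw [add_zero]
      field_simp
      ring
    rw [e]
    have ht : Tendsto (shiftDiv q 0) atImInfty atImInfty := by
      rw [atImInfty, tendsto_comap_iff]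
      have e : (UpperHalfPlane.im ∘ shiftDiv q 0) = fun τ : ℍ ↦ τ.im / q := by
        funext τ
        show (((τ : ℂ) + (0 : ℕ)) / q).im = _
        simp [Complex.div_natCast_im]
      rw [e]
      exact tendsto_comap.atTop_div_const (Nat.cast_pos.2 (NeZero.pos q))
    exact ((isBoundedAtImInfty_E2.comp_tendsto ht).const_mul_left _).sub isBoundedAtImInfty_E2

theorem coeff_E2 (n : ℕ) :
    (qExpansion 1 E2).coeff n = if n = 0 then 1 else -24 * (σ 1 n : ℂ) := by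
  rw [← Nat.cast_one]
  refine qExpansion_coeff_eq mem_qFnH_E2 (c := fun n ↦ if n = 0 then 1 else -24 * (σ 1 n : ℂ))
    (fun τ ↦ ?_) n
  simpa [Function.Periodic.qParam] using hasSum_qExpansion_E2 (z := τ)

/-- The expansion of `q E₂(qτ) - E₂(τ)`. -/
theorem coeff_eisTwo (hq : q.Prime) (n : ℕ) :
    (qExpansion 1 (eisTwo q)).coeff n = if n = 0 then (q : ℂ) - 1 else 24 * (sigP q n : ℂ) := by
  have h1 := comp_diag_mem hq.ne_zero mem_qFnH_E2 (mdiff_E2_diag hq.ne_zero)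
  have e : (⟨_, eisTwo_mem hq.ne_zero⟩ : qFnH 1) =
      (q : ℂ) • ⟨_, h1⟩ - ⟨E2, mem_qFnH_E2⟩ := by
    apply Subtype.ext
    funext τ
    simp [eisTwo_apply hq.ne_zero]
  have e' : qExpansion 1 (eisTwo q) =
      (q : ℂ) • qExpansion 1 (fun τ : ℍ ↦ E2 (heckeDiagMatrix q • τ)) - qExpansion 1 E2 := by
    have := congrArg (qExp 1) e
    rw [map_sub, map_smul] at this
    simpa only [qExp_apply, Nat.cast_one] using this
  rw [e', map_sub, PowerSeries.coeff_smul, smul_eq_mul,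
    qExpansion_coeff_diag hq.ne_zero mem_qFnH_E2 (mdiff_E2_diag hq.ne_zero), coeff_E2, coeff_E2]
  rcases eq_or_ne n 0 with rfl | hn
  · simp
  · rw [if_neg hn, if_neg hn]
    have h := congrArg (fun x : ℤ ↦ (x : ℂ)) (sigma_one_eq_sigP_add hq hn)
    by_cases hd : q ∣ n
    · have hn' : n / q ≠ 0 := Nat.div_ne_zero_iff.2 ⟨hq.ne_zero, Nat.le_of_dvd (Nat.pos_of_ne_zero hn) hd⟩
      simp only [hd, if_true, Int.cast_natCast, Int.cast_add, Int.cast_mul] at h
      rw [if_pos hd, if_neg hn', h]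
      ring
    · simp only [hd, if_false, add_zero, Int.cast_natCast] at h
      rw [if_neg hd, h]
      ring

end FLTAgent.EisIndex
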