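import Fermat.Agent.EisIndex.TraceProduct
import Fermat.Agent.EisIndex.EisTwo

/-!
Congruence tests for a cusp form congruent to `∑ σ'(n) qⁿ` coming from traces of products.
-/

set_option autoImplicit false

noncomputable section

namespace FLTAgent.EisIndex

open UpperHalfPlane hiding I
open CongruenceSubgroup ModularForm PowerSeries
open scoped MatrixGroups ArithmeticFunction.sigma

variable {p : ℕ}

/-- The series `∑ σ'(n) qⁿ`. -/
def sigSeries (p : ℕ) : ℤ⟦X⟧ := PowerSeries.mk fun n ↦ if n = 0 then 0 else (sigP p n : ℤ)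

/-- The series with coefficients `a (n p)`. -/
def upSeries (p : ℕ) (A : ℤ⟦X⟧) : ℤ⟦X⟧ := PowerSeries.mk fun n ↦ coeff (n * p) A

/-- `A` is the expansion of the function `f`. -/
def HasSeries (f : ℍ → ℂ) (A : ℤ⟦X⟧) : Prop :=
  qExpansion 1 f = PowerSeries.map (Int.castRingHom ℂ) A

theorem HasSeries.series_eq {f : ℍ → ℂ} {A : ℤ⟦X⟧} (h : HasSeries f A) :
    qExpansion 1 f = PowerSeries.map (Int.castRingHom ℂ) A := h

theorem HasSeries.coeff_eq {f : ℍ → ℂ} {A : ℤ⟦X⟧} (h : HasSeries f A) (n : ℕ) :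
    (qExpansion 1 f).coeff n = ((coeff n A : ℤ) : ℂ) := by simp [h.series_eq]

theorem hasSeries_of_coeff {f : ℍ → ℂ} {A : ℤ⟦X⟧}
    (h : ∀ n, (qExpansion 1 f).coeff n = ((coeff n A : ℤ) : ℂ)) : HasSeries f A :=
  PowerSeries.ext fun n ↦ by simpa using h n

@[simp] theorem coeff_sigSeries (n : ℕ) :
    coeff n (sigSeries p) = if n = 0 then 0 else (sigP p n : ℤ) := coeff_mk _ _

theorem upSeries_sigSeries (hp : p.Prime) : upSeries p (sigSeries p) = sigSeries p := by
  ext n
  rcases eq_or_ne n 0 with rfl | hn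
  · simp [upSeries]
  · simp [upSeries, hn, hp.ne_zero, sigP_mul_self hp hn]

theorem upSeries_add (A B : ℤ⟦X⟧) : upSeries p (A + B) = upSeries p A + upSeries p B := by
  ext n; simp [upSeries]

theorem upSeries_sub (A B : ℤ⟦X⟧) : upSeries p (A - B) = upSeries p A - upSeries p B := by
  ext n; simp [upSeries]

theorem upSeries_C_mul (c : ℤ) (A : ℤ⟦X⟧) : upSeries p (C c * A) = C c * upSeries p A := by
  ext n
  rw [upSeries, coeff_mk, coeff_C_mul, coeff_C_mul, upSeries, coeff_mk]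

theorem upSeries_C (hp : p ≠ 0) (c : ℤ) : upSeries p (C c) = C c := by
  ext n
  rw [upSeries, coeff_mk, coeff_C, coeff_C]
  simp [hp]

theorem hasSeries_eisTwo (hp : p.Prime) :
    HasSeries (eisTwo p) (C ((p : ℤ) - 1) + C 24 * sigSeries p) := by
  refine hasSeries_of_coeff fun n ↦ ?_
  rw [coeff_eisTwo hp, map_add, coeff_C_mul, coeff_C, coeff_sigSeries]
  split_ifs <;> simp

variable [Fact p.Prime]

/-- The trace identity for integral series. -/
theorem trace_product_int {f g : ℍ → ℂ} {A B : ℤ⟦X⟧} (hf : Dim.IsMF (Gamma0 p) 2 f)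
    (hg : Dim.IsMF (Gamma0 p) 2 g) (hA : HasSeries f A) (hB : HasSeries g B) (n : ℕ) :
    (p : ℤ) * coeff n (A * B) + coeff (p * n) (upSeries p A * upSeries p B) =
      (p + 1) * (coeff 0 A * coeff 0 B) * (if n = 0 then 1 else 240 * (σ 3 n : ℤ)) := by
  have hU : ∀ {F : ℍ → ℂ} {A : ℤ⟦X⟧}, Dim.IsMF (Gamma0 p) 2 F → HasSeries F A →
      HasSeries (heckeU 2 p F) (upSeries p A) := by
    intro F A hF hA
    refine hasSeries_of_coeff fun m ↦ ?_
    rw [coeff_heckeU (NeZero.ne p) (mem_qFnH_one hF), hA.coeff_eq, upSeries, coeff_mk]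
  have h := trace_product hf hg n
  rw [hA.coeff_eq, hB.coeff_eq] at h
  rw [hA.series_eq, hB.series_eq, (hU hf hA).series_eq, (hU hg hB).series_eq,
    ← map_mul, ← map_mul, PowerSeries.coeff_map, PowerSeries.coeff_map] at h
  simp only [eq_intCast] at h
  apply Int.cast_injective (α := ℂ)
  push_cast
  exact h

theorem coeff_one_mul (A B : ℤ⟦X⟧) :
    coeff 1 (A * B) = coeff 0 A * coeff 1 B + coeff 1 A * coeff 0 B := by
  rw [PowerSeries.coeff_mul, show Finset.HasAntidiagonal.antidiagonal 1 = {(0, 1), (1, 0)} by decide]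
  simp

theorem coeff_two_mul (A B : ℤ⟦X⟧) :
    coeff 2 (A * B) =
      coeff 0 A * coeff 2 B + coeff 1 A * coeff 1 B + coeff 2 A * coeff 0 B := by
  rw [PowerSeries.coeff_mul, show Finset.HasAntidiagonal.antidiagonal 2 = {(0, 2), (1, 1), (2, 0)} by decide]
  simp [add_assoc]

/-- A weight two form on `Γ₀(p)` congruent to `∑ σ'(n) qⁿ` modulo `m`, with zero constant term. -/
structure EisCong (p m : ℕ) (f : ℍ → ℂ) (A D : ℤ⟦X⟧) : Prop where
  isMF : Dim.IsMF (Gamma0 p) 2 f
  series : HasSeries f A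
  zero : coeff 0 A = 0
  congr : sigSeries p - A = C (m : ℤ) * D

variable {m : ℕ} {f : ℍ → ℂ} {A D : ℤ⟦X⟧}

theorem EisCong.coeff_zero_D (h : EisCong p m f A D) : (m : ℤ) * coeff 0 D = 0 := by
  have := congrArg (coeff 0) h.congr
  rw [map_sub, coeff_C_mul, h.zero, coeff_sigSeries, if_pos rfl, sub_zero] at this
  exact this.symm

theorem sigma_three_two : (σ 3 2 : ℕ) = 9 := by decide

theorem sigP_two (hp2 : p ≠ 2) : sigP p 2 = 3 := by
  rw [sigP_prime Fact.out Nat.prime_two (Ne.symm hp2)]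

theorem coeff_eisSq {k : ℕ} (hk : k ≠ 0) (c : ℤ) (S : ℤ⟦X⟧) :
    coeff k ((C c + C 24 * S) * (C c + C 24 * S)) =
      48 * c * coeff k S + 576 * coeff k (S * S) := by
  have e : (C c + C 24 * S) * (C c + C 24 * S) =
      C (c * c) + C (24 * c) * S + C (24 * c) * S + C (24 * 24) * (S * S) := by
    simp only [map_mul]
    ring
  rw [e, map_add, map_add, map_add, coeff_C, if_neg hk, coeff_C_mul, coeff_C_mul]
  ring

theorem coeff_zero_eis (c : ℤ) {S : ℤ⟦X⟧} (hS : coeff 0 S = 0) :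
    coeff 0 (C c + C 24 * S) = c := by
  rw [map_add, coeff_C, if_pos rfl, coeff_C_mul, hS, mul_zero, add_zero]

/-- The identity `E² ↦ E₄` of traces, at one coefficient. -/
theorem trace_eis_sq {k : ℕ} (hk : k ≠ 0) :
    (p : ℤ) * (48 * ((p : ℤ) - 1) * (sigP p k : ℤ) +
        576 * coeff k (sigSeries p * sigSeries p)) +
      (48 * ((p : ℤ) - 1) * (sigP p k : ℤ) +
        576 * coeff (p * k) (sigSeries p * sigSeries p)) =
      ((p : ℤ) + 1) * (((p : ℤ) - 1) * ((p : ℤ) - 1)) * (240 * (σ 3 k : ℤ)) := by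
  have hp : p.Prime := Fact.out
  have h := trace_product_int isMF_eisTwo isMF_eisTwo (hasSeries_eisTwo hp) (hasSeries_eisTwo hp) k
  rw [upSeries_add, upSeries_C hp.ne_zero, upSeries_C_mul, upSeries_sigSeries hp, coeff_eisSq hk,
    coeff_eisSq (mul_ne_zero hp.ne_zero hk), coeff_zero_eis _ (by rw [coeff_sigSeries, if_pos rfl]),
    coeff_sigSeries, coeff_sigSeries, if_neg hk, if_neg hk, if_neg (mul_ne_zero hp.ne_zero hk),
    mul_comm p k, sigP_mul_self hp hk] at h
  rw [mul_comm p k]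
  exact h

theorem coeff_sigSeries_sq_one :
    12 * coeff p (sigSeries p * sigSeries p) =
      ((p : ℤ) + 1) * (p - 1) * (5 * (p - 1) - 1) := by
  have h := trace_eis_sq (p := p) one_ne_zero
  rw [coeff_one_mul (sigSeries p) (sigSeries p), coeff_sigSeries 0, if_pos rfl, mul_one,
    sigP_one Fact.out, ArithmeticFunction.sigma_one] at h
  push_cast at h
  linarith

theorem coeff_sigSeries_sq_two (hp2 : p ≠ 2) :
    4 * ((p : ℤ) + coeff (p * 2) (sigSeries p * sigSeries p)) =
      ((p : ℤ) + 1) * (p - 1) * (15 * (p - 1) - 1) := by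
  have h := trace_eis_sq (p := p) two_ne_zero
  rw [coeff_two_mul (sigSeries p) (sigSeries p), coeff_sigSeries 0, if_pos rfl, coeff_sigSeries 1,
    if_neg one_ne_zero, sigP_two hp2, sigP_one Fact.out, sigma_three_two] at h
  push_cast at h
  linarith

/-- `12 m` divides `(p + 1)(p - 1)(5 p - 6)`. -/
theorem EisCong.dvd_one (h : EisCong p m f A D) :
    12 * (m : ℤ) ∣ ((p : ℤ) + 1) * (p - 1) * (5 * (p - 1) - 1) := by
  have hp : p.Prime := Fact.out
  have ht := trace_product_int h.isMF h.isMF h.series h.series 1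
  rw [h.zero, coeff_one_mul, h.zero] at ht
  simp only [mul_zero, zero_mul, add_zero, zero_add, mul_one] at ht
  have e : upSeries p A = sigSeries p - C (m : ℤ) * upSeries p D := by
    rw [← upSeries_C_mul, ← h.congr, upSeries_sub, upSeries_sigSeries hp]
    abel
  rw [← coeff_sigSeries_sq_one (p := p)]
  refine mul_dvd_mul_left 12 ?_
  rw [e] at ht
  have : sigSeries p * sigSeries p = (sigSeries p - C (m : ℤ) * upSeries p D) *
      (sigSeries p - C (m : ℤ) * upSeries p D) +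
      C (m : ℤ) * (2 * sigSeries p * upSeries p D - C (m : ℤ) * (upSeries p D * upSeries p D)) := by
    ring
  rw [this, map_add, ht, coeff_C_mul, zero_add]
  exact dvd_mul_right _ _

/-- If `m` is even, `16` divides `(p + 1)(p - 1)(15 p - 16)`. -/
theorem EisCong.dvd_two (h : EisCong p m f A D) (hp2 : p ≠ 2) (hm : 2 ∣ m) :
    (16 : ℤ) ∣ ((p : ℤ) + 1) * (p - 1) * (15 * (p - 1) - 1) := by
  have hp : p.Prime := Fact.out
  have ht := trace_product_int h.isMF h.isMF h.series h.series 2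
  rw [h.zero, coeff_two_mul, h.zero] at ht
  simp only [mul_zero, zero_mul, add_zero, zero_add] at ht
  obtain ⟨e, rfl⟩ := hm
  have he : upSeries p A = sigSeries p - C ((2 * e : ℕ) : ℤ) * upSeries p D := by
    rw [← upSeries_C_mul, ← h.congr, upSeries_sub, upSeries_sigSeries hp]
    abel
  have hodd : (4 : ℤ) ∣ coeff 1 A * coeff 1 A - 1 := by
    have h1 := congrArg (coeff 1) h.congr
    rw [map_sub, coeff_C_mul, coeff_sigSeries, if_neg one_ne_zero, sigP_one hp] at h1
    push_cast at h1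
    have hA : coeff 1 A = 1 - 2 * (e : ℤ) * coeff 1 D := by linarith
    exact ⟨(e : ℤ) * coeff 1 D * (e * coeff 1 D) - e * coeff 1 D, by rw [hA]; ring⟩
  rw [← coeff_sigSeries_sq_two hp2, show (16 : ℤ) = 4 * 4 by norm_num]
  refine mul_dvd_mul_left 4 ?_
  rw [he] at ht
  have : sigSeries p * sigSeries p = (sigSeries p - C ((2 * e : ℕ) : ℤ) * upSeries p D) *
      (sigSeries p - C ((2 * e : ℕ) : ℤ) * upSeries p D) +
      C (4 : ℤ) * (C (e : ℤ) * (sigSeries p * upSeries p D)
        - C ((e : ℤ) * e) * (upSeries p D * upSeries p D)) := by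
    push_cast
    simp only [map_mul]
    rw [show (C (4 : ℤ) : ℤ⟦X⟧) = C 2 * C 2 by rw [← map_mul]; norm_num,
      show (C (2 : ℤ) : ℤ⟦X⟧) = 2 from map_ofNat C 2]
    ring
  rw [this, map_add, coeff_C_mul, ← add_assoc]
  refine dvd_add ?_ (dvd_mul_right _ _)
  obtain ⟨k, hk⟩ := hodd
  exact ⟨-((p : ℤ) * k), by linear_combination ht - (p : ℤ) * hk⟩

/-- Tests from the trace of the product with the Eisenstein series. -/
theorem EisCong.dvd_eisenstein (h : EisCong p m f A D) (n : ℕ) (hn : n ≠ 0) {d : ℤ}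
    (hd24 : d ∣ 24) (hdc : d ∣ (p : ℤ) - 1) :
    (m : ℤ) * d ∣ ((p : ℤ) - 1) * (p + 1) * (sigP p n - 10 * (p - 1) * (σ 3 n : ℤ)) := by
  have hp : p.Prime := Fact.out
  have hg : Dim.IsMF (Gamma0 p) 2 (eisTwo p - (24 : ℂ) • f) := isMF_eisTwo.sub (h.isMF.smul 24)
  set S := sigSeries p
  set c : ℤ := (p : ℤ) - 1
  have hG : HasSeries (eisTwo p - (24 : ℂ) • f) (C c + C 24 * C (m : ℤ) * D) := by
    refine hasSeries_of_coeff fun k ↦ ?_
    have h1 := mem_qFnH_one (p := p) (isMF_eisTwo (q := p))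
    have h2 := mem_qFnH_one h.isMF
    have e : qExpansion 1 (eisTwo p - (24 : ℂ) • f) =
        qExpansion 1 (eisTwo p) - (24 : ℂ) • qExpansion 1 f := by
      have := map_sub (qExp 1) ⟨_, h1⟩ ((24 : ℂ) • ⟨_, h2⟩)
      rw [map_smul] at this
      simp only [qExp_apply, Nat.cast_one] at this
      exact this
    rw [e, map_sub, PowerSeries.coeff_smul, (hasSeries_eisTwo hp).coeff_eq, h.series.coeff_eq,
      mul_assoc, ← h.congr]
    simp only [c, map_add, map_sub, coeff_C_mul, coeff_sigSeries, smul_eq_mul]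
    push_cast
    ring
  have ht := trace_product_int hg isMF_eisTwo hG (hasSeries_eisTwo hp) n
  have hu : upSeries p (C c + C (24 : ℤ) * C (m : ℤ) * D) =
      C c + C (24 : ℤ) * C (m : ℤ) * upSeries p D := by
    rw [upSeries_add, upSeries_C hp.ne_zero, ← map_mul, upSeries_C_mul]
  have hu' : upSeries p (C c + C 24 * S) = C c + C 24 * S := by
    rw [upSeries_add, upSeries_C hp.ne_zero, upSeries_C_mul, upSeries_sigSeries hp]
  obtain ⟨t, ht24⟩ := hd24
  obtain ⟨u, hu24⟩ := hdc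
  change c = d * u at hu24
  have key : ∀ (W : ℤ⟦X⟧) (k : ℕ), k ≠ 0 →
      ∃ z, coeff k ((C c + C 24 * C (m : ℤ) * W) * (C c + C 24 * S)) =
        24 * c * (sigP p k : ℤ) + 24 * ((m : ℤ) * d) * z := by
    intro W k hk
    refine ⟨u * coeff k W + t * coeff k (W * S), ?_⟩
    have : (C c + C 24 * C (m : ℤ) * W) * (C c + C 24 * S) =
        C (c * c) + C (24 * c) * S + C (24 * (m : ℤ) * c) * W + C (24 * (m : ℤ) * 24) * (W * S) := by
      simp only [map_mul]; ring
    rw [this, map_add, map_add, map_add, coeff_C_mul, coeff_C_mul, coeff_C_mul, coeff_C, if_neg hk,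
      show coeff k S = (sigP p k : ℤ) by simp [S, hk]]
    linear_combination (24 * (m : ℤ) * coeff k W) * hu24 +
      (24 * (m : ℤ) * coeff k (W * S)) * ht24
  obtain ⟨z1, hz1⟩ := key D n hn
  obtain ⟨z2, hz2⟩ := key (upSeries p D) (p * n) (mul_ne_zero hp.ne_zero hn)
  rw [hu, hu', hz1, hz2, mul_comm p n, sigP_mul_self hp hn, if_neg hn, map_add, map_add, coeff_C,
    if_pos rfl, coeff_C_mul, mul_assoc (C (24 : ℤ)), coeff_C_mul, coeff_C_mul, h.coeff_zero_D,
    coeff_sigSeries, if_pos rfl] at ht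
  refine ⟨-((p : ℤ) * z1 + z2), ?_⟩
  apply mul_left_cancel₀ (show (24 : ℤ) ≠ 0 by norm_num)
  linear_combination ht

end FLTAgent.EisIndex
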