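import Fermat.Agent.Dim.Forms
import Fermat.Agent.Dim.Gamma0Cosets
import Mathlib.Algebra.Order.BigOperators.Group.Finset

/-!
Cosets of `Γ₀(p)` for a prime `p`, translates of invariant functions, and symmetric functions of
the translates.
-/

set_option autoImplicit false

noncomputable section

namespace FLTAgent.EisIndex

open UpperHalfPlane hiding I
open Matrix.SpecialLinearGroup CongruenceSubgroup ModularGroup
open scoped MatrixGroups ModularForm Manifold

variable {p : ℕ}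

/-- Representatives of the cosets of `Γ₀(p)`. -/
def cosetRep (p : ℕ) : Option (Fin p) → SL(2, ℤ)
  | none => 1
  | some j => (S * T ^ ((j : ℕ) : ℤ))⁻¹

theorem cosetRep_col (j : Fin p) :
    cosetRep p (some j) 0 0 = ((j : ℕ) : ℤ) ∧ cosetRep p (some j) 1 0 = -1 := by
  simp only [cosetRep, coe_inv, coe_mul, coe_S, coe_T_zpow, Matrix.adjugate_fin_two,
    Matrix.of_apply, Matrix.cons_val', Matrix.cons_val_zero, Matrix.cons_val_one,
    Matrix.cons_val_fin_one, Matrix.mul_apply, Fin.sum_univ_two]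
  simp

theorem mk_cosetRep_bijective [Fact p.Prime] :
    Function.Bijective fun o : Option (Fin p) ↦ (cosetRep p o : Dim.Cosets0 p) := by
  have : NeZero p := ⟨(Fact.out : p.Prime).ne_zero⟩
  constructor
  · rintro (_ | i) (_ | j) h
    · rfl
    · rw [Dim.mk_eq_mk_iff] at h
      rw [show cosetRep p none = 1 from rfl] at h
      simp [cosetRep_col] at h
    · rw [Dim.mk_eq_mk_iff] at h
      rw [show cosetRep p none = 1 from rfl] at h
      simp [cosetRep_col] at h
    · rw [Dim.mk_eq_mk_iff, (cosetRep_col i).1, (cosetRep_col i).2, (cosetRep_col j).1,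
        (cosetRep_col j).2] at h
      have h1 : ((i : ℕ) : ZMod p) = (j : ℕ) := by
        push_cast at h
        linear_combination -h
      congr 1
      ext
      simpa [ZMod.natCast_eq_natCast_iff', Nat.mod_eq_of_lt i.2, Nat.mod_eq_of_lt j.2] using h1
  · intro q
    induction q using QuotientGroup.induction_on with
    | H g =>
      rcases eq_or_ne ((g 1 0 : ℤ) : ZMod p) 0 with hc | hc
      · refine ⟨none, (Dim.mk_eq_mk_iff _ _).2 ?_⟩
        simp [cosetRep, hc]
      · let x : ZMod p := -((g 0 0 : ℤ) : ZMod p) / ((g 1 0 : ℤ) : ZMod p)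
        refine ⟨some ⟨x.val, x.val_lt⟩, (Dim.mk_eq_mk_iff _ _).2 ?_⟩
        rw [(cosetRep_col _).1, (cosetRep_col _).2]
        push_cast
        rw [ZMod.natCast_zmod_val]
        simp only [x]
        field_simp
        ring

/-- The identification of `Option (Fin p)` with the cosets. -/
def cosetEquiv (p : ℕ) [Fact p.Prime] : Option (Fin p) ≃ Dim.Cosets0 p :=
  Equiv.ofBijective _ mk_cosetRep_bijective

@[simp] theorem cosetEquiv_apply [Fact p.Prime] (o : Option (Fin p)) :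
    cosetEquiv p o = (cosetRep p o : Dim.Cosets0 p) := rfl

theorem index_gamma0_prime (hp : p.Prime) : (Gamma0 p).index = p + 1 := by
  have := Fact.mk hp
  rw [Subgroup.index_eq_card, ← Nat.card_congr (cosetEquiv p)]
  simp

variable {Γ : Subgroup SL(2, ℤ)} {k : ℤ} {f : ℍ → ℂ}

/-- The translates `f ∣ g⁻¹` of a `Γ`-invariant function. -/
def transl (hf : ∀ γ ∈ Γ, f ∣[k] γ = f) : SL(2, ℤ) ⧸ Γ → ℍ → ℂ :=
  Quotient.lift (fun g : SL(2, ℤ) ↦ f ∣[k] g⁻¹) fun a b hab ↦ by
    replace hab : a⁻¹ * b ∈ Γ := QuotientGroup.leftRel_apply.1 hab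
    have e : b⁻¹ = (a⁻¹ * b)⁻¹ * a⁻¹ := by group
    show f ∣[k] a⁻¹ = f ∣[k] b⁻¹
    rw [e, SlashAction.slash_mul, hf _ (inv_mem hab)]

@[simp] theorem transl_mk (hf : ∀ γ ∈ Γ, f ∣[k] γ = f) (g : SL(2, ℤ)) :
    transl hf (g : SL(2, ℤ) ⧸ Γ) = f ∣[k] g⁻¹ := rfl

theorem transl_slash (hf : ∀ γ ∈ Γ, f ∣[k] γ = f) (q : SL(2, ℤ) ⧸ Γ) (h : SL(2, ℤ)) :
    transl hf q ∣[k] h = transl hf (h⁻¹ • q) := by
  induction q using QuotientGroup.induction_on with
  | H g => rw [MulAction.Quotient.smul_coe, transl_mk, transl_mk, ← SlashAction.slash_mul,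
      smul_eq_mul, mul_inv_rev, inv_inv]

theorem transl_cosetRep_none (hf : ∀ γ ∈ Gamma0 p, f ∣[k] γ = f) :
    transl hf (cosetRep p none : Dim.Cosets0 p) = f := by
  simp [cosetRep]

theorem transl_cosetRep_some (hf : ∀ γ ∈ Gamma0 p, f ∣[k] γ = f) (j : Fin p) :
    transl hf (cosetRep p (some j) : Dim.Cosets0 p) = f ∣[k] (S * T ^ ((j : ℕ) : ℤ)) := by
  simp [cosetRep]

theorem slash_T_zpow_apply (k : ℤ) (f : ℍ → ℂ) (n : ℤ) (τ : ℍ) :
    (f ∣[k] (T ^ n : SL(2, ℤ))) τ = f ((n : ℝ) +ᵥ τ) := by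
  rw [ModularForm.SL_slash_apply, modular_T_zpow_smul, ModularGroup.denom_apply]
  simp [coe_T_zpow]

theorem isBoundedAtImInfty_slash_T_zpow {k : ℤ} {f : ℍ → ℂ} (hb : IsBoundedAtImInfty f) (n : ℤ) :
    IsBoundedAtImInfty (f ∣[k] (T ^ n : SL(2, ℤ))) := by
  have ht : Filter.Tendsto (fun τ : ℍ ↦ (n : ℝ) +ᵥ τ) atImInfty atImInfty := by
    rw [atImInfty, Filter.tendsto_comap_iff]
    have e : (UpperHalfPlane.im ∘ fun τ : ℍ ↦ (n : ℝ) +ᵥ τ) = UpperHalfPlane.im := by
      funext τ; simp [UpperHalfPlane.vadd_im]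
    rw [e]
    exact Filter.tendsto_comap
  exact (funext (slash_T_zpow_apply k f n)).symm ▸ hb.comp_tendsto ht

/-- For prime level it suffices to check boundedness at `∞` and after applying `S`. -/
theorem isMF_gamma0_of_prime [Fact p.Prime] (hd : MDiff f)
    (hinv : ∀ γ ∈ Gamma0 p, f ∣[k] γ = f) (h0 : IsBoundedAtImInfty f)
    (hS : IsBoundedAtImInfty (f ∣[k] S)) : Dim.IsMF (Gamma0 p) k f := by
  refine ⟨hd, hinv, fun g ↦ ?_⟩
  obtain ⟨o, ho⟩ := (cosetEquiv p).surjective (g⁻¹ : SL(2, ℤ))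
  have e : f ∣[k] g = transl hinv (cosetRep p o : Dim.Cosets0 p) := by
    rw [← cosetEquiv_apply, ho]; simp
  rw [e]
  cases o with
  | none => rw [transl_cosetRep_none]; exact h0
  | some j =>
    rw [transl_cosetRep_some, SlashAction.slash_mul]
    exact isBoundedAtImInfty_slash_T_zpow hS _

theorem prod_slash_SL {ι : Type*} (s : Finset ι) (F : ι → ℍ → ℂ) (g : SL(2, ℤ)) :
    (∏ i ∈ s, F i) ∣[(s.card : ℤ) * k] g = ∏ i ∈ s, (F i ∣[k] g) := by
  classical
  induction s using Finset.induction_on with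
  | empty => simpa using ModularForm.is_invariant_one g
  | insert a s ha ih =>
    rw [Finset.prod_insert ha, Finset.prod_insert ha, Finset.card_insert_of_notMem ha,
      show ((s.card + 1 : ℕ) : ℤ) * k = k + (s.card : ℤ) * k by push_cast; ring,
      ModularForm.mul_slash_SL2, ih]

/-- The elementary symmetric function of degree `L` in a family of functions. -/
def esymmFn {ι : Type*} [Fintype ι] (Φ : ι → ℍ → ℂ) (L : ℕ) : ℍ → ℂ :=
  ∑ s ∈ Finset.powersetCard L Finset.univ, ∏ q ∈ s, Φ q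

theorem isMF_esymmFn {ι : Type*} [Fintype ι] [MulAction SL(2, ℤ) ι] (Φ : ι → ℍ → ℂ) (L : ℕ)
    (hd : ∀ q, MDiff (Φ q)) (hb : ∀ q (g : SL(2, ℤ)), IsBoundedAtImInfty (Φ q ∣[k] g))
    (hinv : ∀ q, ∀ h ∈ Γ, Φ q ∣[k] h = Φ (h⁻¹ • q)) :
    Dim.IsMF Γ ((L : ℤ) * k) (esymmFn Φ L) := by
  refine ⟨?_, ?_, ?_⟩
  · rw [esymmFn]
    refine Finset.sum_induction _ (fun F : ℍ → ℂ ↦ MDiff F) (fun a b ha hb' ↦ ha.add hb')
      mdifferentiable_const fun s _ ↦ ?_
    exact Finset.prod_induction _ (fun F : ℍ → ℂ ↦ MDiff F) (fun a b ha hb' ↦ ha.mul hb')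
      mdifferentiable_const fun q _ ↦ hd q
  · intro h hh
    rw [esymmFn, SlashAction.sum_slash]
    have e : ∀ s ∈ Finset.powersetCard L (Finset.univ : Finset ι),
        (∏ q ∈ s, Φ q) ∣[(L : ℤ) * k] h =
          ∏ q ∈ s.map (MulAction.toPerm h⁻¹).toEmbedding, Φ q := by
      intro s hs
      rw [← (Finset.mem_powersetCard.1 hs).2, prod_slash_SL, Finset.prod_map]
      exact Finset.prod_congr rfl fun q _ ↦ hinv q h hh
    rw [Finset.sum_congr rfl e]
    conv_rhs => rw [← Finset.map_univ_equiv (MulAction.toPerm h⁻¹), Finset.powersetCard_map,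
      Finset.sum_map]
    rfl
  · intro g
    rw [esymmFn, SlashAction.sum_slash]
    refine Finset.sum_induction _ IsBoundedAtImInfty (fun a b ha hb' ↦ ha.add hb')
      zero_form_isBoundedAtImInfty fun s hs ↦ ?_
    rw [← (Finset.mem_powersetCard.1 hs).2, prod_slash_SL]
    exact Finset.prod_induction _ IsBoundedAtImInfty (fun a b ha hb' ↦ ha.mul hb')
      (Filter.const_boundedAtFilter _ _) fun q _ ↦ hb q g

end FLTAgent.EisIndex
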