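import Fermat.Agent.EisIndex.Fricke
import Fermat.Agent.Quick.CuspCoeff

/-!
Weight two forms on `Γ₀(p)` whose constant terms at infinity and after `U_p` vanish are cusp forms;
conversely cusp forms are modular forms in the sense of `Dim.IsMF`.
-/

set_option autoImplicit false

noncomputable section

namespace FLTAgent.EisIndex

open Function ModularGroup Matrix.SpecialLinearGroup CongruenceSubgroup ModularForm
open UpperHalfPlane hiding I
open scoped MatrixGroups ModularForm Manifold OnePoint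

theorem isZeroAtImInfty_of_coeff {g : ℍ → ℂ} (hg : g ∈ qFnH 1)
    (h0 : (qExpansion 1 g).coeff 0 = 0) : IsZeroAtImInfty g := by
  have hper : Periodic (g ∘ ofComplex) (1 : ℝ) := by simpa using hg.1
  have ha := analyticAt_cuspFunction_zero one_pos hper hg.2.1 hg.2.2
  rw [qExpansion_coeff_zero one_pos ha hper] at h0
  have h := exp_decay_sub_atImInfty one_pos hper hg.2.1 hg.2.2
  simp only [h0, sub_zero] at h
  refine h.trans_tendsto ?_
  have h1 : Filter.Tendsto (fun τ : ℍ ↦ τ.im) atImInfty Filter.atTop := Filter.tendsto_comap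
  refine Real.tendsto_exp_atBot.comp ?_
  have hc : (-2 * Real.pi) < 0 := by linarith [Real.pi_pos]
  simpa using h1.const_mul_atTop_of_neg hc

variable {p : ℕ} [Fact p.Prime]

/-- A cusp form is a modular form. -/
theorem isMF_cuspForm (f : CuspForm (Gamma0 p) 2) : Dim.IsMF (Gamma0 p) 2 (f : ℍ → ℂ) := by
  haveI : NeZero p := ⟨(Fact.out : p.Prime).ne_zero⟩
  exact ⟨f.holo', fun g hg ↦ f.slash_action_eq' _ ⟨g, hg, rfl⟩,
    fun g ↦ ModularFormClass.bdd_at_infty_slash f g⟩

/-- A cusp form from the vanishing of two constant terms. -/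
theorem exists_cuspForm {f : ℍ → ℂ} (hf : Dim.IsMF (Gamma0 p) 2 f)
    (h0 : (qExpansion 1 f).coeff 0 = 0) :
    ∃ F : CuspForm (Gamma0 p) 2, (F : ℍ → ℂ) = f := by
  have hp : p.Prime := Fact.out
  haveI : NeZero p := ⟨hp.ne_zero⟩
  have hU0 : IsZeroAtImInfty (heckeU 2 p f) := by
    refine isZeroAtImInfty_of_coeff (mem_qFnH_one (isMF_heckeU hf)) ?_
    rw [coeff_heckeU hp.ne_zero (mem_qFnH_one hf), zero_mul, h0]
  have hall : ∀ g : SL(2, ℤ), IsZeroAtImInfty (f ∣[(2 : ℤ)] g) := by
    intro g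
    obtain ⟨o, ho⟩ := (cosetEquiv p).surjective (g⁻¹ : SL(2, ℤ))
    have e : f ∣[(2 : ℤ)] g = transl hf.inv (cosetRep p o : Dim.Cosets0 p) := by
      rw [← cosetEquiv_apply, ho]; simp
    rw [e]
    cases o with
    | none => rw [transl_cosetRep_none]; exact isZeroAtImInfty_of_coeff (mem_qFnH_one hf) h0
    | some j =>
      rw [transl_cosetRep_some, funext (slash_ST_eq hf (j : ℕ))]
      have ht : Filter.Tendsto (shiftDiv p (j : ℕ)) atImInfty atImInfty := by
        rw [atImInfty, Filter.tendsto_comap_iff]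
        have e : (UpperHalfPlane.im ∘ shiftDiv p (j : ℕ)) = fun τ : ℍ ↦ τ.im / p := by
          funext τ
          rw [Function.comp_apply, ← coe_im, coe_shiftDiv]
          simp [Complex.div_natCast_im]
        rw [e]
        exact Filter.tendsto_comap.atTop_div_const (Nat.cast_pos.2 (NeZero.pos p))
      have := ((hU0.comp ht).const_mul ((p : ℂ)⁻¹)).neg
      simpa [IsZeroAtImInfty, Filter.ZeroAtFilter] using this
  refine ⟨{ toFun := f, slash_action_eq' := ?_, holo' := hf.holo, zero_at_cusps' := ?_ }, rfl⟩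
  · rintro A ⟨g, hg, rfl⟩
    exact hf.inv g hg
  · intro c hc
    rw [Subgroup.IsArithmetic.isCusp_iff_isCusp_SL2Z] at hc
    exact (OnePoint.isZeroAt_iff_forall_SL2Z hc).2 fun g _ ↦ hall g

end FLTAgent.EisIndex
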