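import Fermat.Agent.EisIndex.LevelTwoThree
import Mathlib.Data.Nat.Choose.Lucas

/-!
The descent through elementary symmetric functions of translates: an Eisenstein congruence modulo
`ℓ` with `p ≡ -1` modulo a suitable power of `ℓ` is impossible.
-/

set_option autoImplicit false

noncomputable section

namespace FLTAgent.EisIndex

open UpperHalfPlane hiding I
open Matrix.SpecialLinearGroup CongruenceSubgroup ModularGroup ModularForm PowerSeries
open scoped MatrixGroups ModularForm Manifold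

theorem choose_prime_pow_mul_modEq {ℓ : ℕ} (hℓ : ℓ.Prime) (a M : ℕ) :
    Nat.choose (ℓ ^ a * M) (ℓ ^ a) ≡ M [MOD ℓ] := by
  have := Fact.mk hℓ
  induction a with
  | zero => simp [Nat.ModEq]
  | succ a ih =>
    have h := Choose.choose_modEq_choose_mod_mul_choose_div_nat (p := ℓ)
      (n := ℓ ^ (a + 1) * M) (k := ℓ ^ (a + 1))
    have h1 : ℓ ^ (a + 1) * M % ℓ = 0 :=
      Nat.mod_eq_zero_of_dvd ((dvd_pow_self ℓ a.succ_ne_zero).mul_right M)
    have h2 : ℓ ^ (a + 1) % ℓ = 0 := Nat.mod_eq_zero_of_dvd (dvd_pow_self ℓ a.succ_ne_zero)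
    have h3 : ℓ ^ (a + 1) * M / ℓ = ℓ ^ a * M := by
      rw [pow_succ', mul_assoc, Nat.mul_div_cancel_left _ hℓ.pos]
    have h4 : ℓ ^ (a + 1) / ℓ = ℓ ^ a := by
      rw [pow_succ', Nat.mul_div_cancel_left _ hℓ.pos]
    rw [h1, h2, h3, h4, Nat.choose_zero_right, one_mul] at h
    exact h.trans ih

theorem not_dvd_of_algInt {ℓ : ℕ} (hℓ : ℓ.Prime) {a : ℤ} (ha : ¬ (ℓ : ℤ) ∣ a) :
    ¬ DivAlg ℓ (a : ℂ) := fun ⟨_, he⟩ ↦
  ha (intCast_dvd_of_algInt (Int.natCast_ne_zero.2 hℓ.ne_zero) (by exact_mod_cast he))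

variable {p : ℕ} [Fact p.Prime] {q : ℕ} [Fact q.Prime]

/-- The descent. -/
theorem descent_false (h23 : q = 2 ∨ q = 3) {ℓ : ℕ} (hℓ : ℓ.Prime) {δ u : ℤ}
    (hδ : δ ≠ 0) {g : ℍ → ℂ} {G : ℤ⟦X⟧} (hg : Dim.IsMF (Gamma0 p) 2 g) (hG : HasSeries g G)
    (hu : coeff 0 G * kappa q = δ * u)
    (hdiv : ∀ n ≠ 0, δ * (ℓ : ℤ) ∣ coeff n G)
    (hc : δ * (ℓ : ℤ) ∣ coeff 0 G * ((p : ℤ) + 1))
    (hpu : ¬ (ℓ : ℤ) ∣ (p : ℤ) * u) : False := by
  classical
  set c : ℤ := coeff 0 G
  obtain ⟨a, M, hM, hLM⟩ := Nat.exists_eq_pow_mul_and_not_dvd (Nat.succ_ne_zero p) ℓ hℓ.ne_one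
  set L := ℓ ^ a
  have hL : L ≠ 0 := pow_ne_zero _ hℓ.ne_zero
  let β : ℂ := -((p : ℂ) * c)
  let Φ : Dim.Cosets0 p → ℍ → ℂ :=
    fun x ↦ (δ : ℂ)⁻¹ • ((p : ℂ) • transl hg.inv x + β • aForm q)
  let : Fintype (Dim.Cosets0 p) := Fintype.ofEquiv _ (cosetEquiv p)
  have hA : Dim.IsMF (Gamma0 q) 2 (aForm q) := isMF_eisTwo.smul _
  have hmf : Dim.IsMF (Gamma0 q) (2 * (L : ℤ)) (esymmFn Φ L) := by
    refine (isMF_esymmFn Φ L ?_ ?_ ?_).cast (mul_comm _ _)
    · intro x
      induction x using QuotientGroup.induction_on with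
      | H y => exact (((MDifferentiable.slash hg.holo 2 _).const_smul _).add
          (hA.holo.const_smul _)).const_smul _
    · intro x A
      induction x using QuotientGroup.induction_on with
      | H y =>
        simp only [Φ, transl_mk, ModularForm.SL_smul_slash, SlashAction.add_slash,
          ← SlashAction.slash_mul]
        exact (((hg.bdd _).smul _).add ((hA.bdd A).smul _)).smul _
    · intro x h hh
      simp only [Φ, ModularForm.SL_smul_slash, SlashAction.add_slash, transl_slash, hA.inv h hh]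
  -- expansions of the translates at period `p`
  have haq : aForm q ∈ qFnH 1 := mem_qFnH_one hA
  let FA : qFnH p := ⟨_, mem_qFnH_of_one haq p⟩
  let F : Option (Fin p) → qFnH p :=
    fun o ↦ (δ : ℂ)⁻¹ • (⟨_, conjFam_mem hg o⟩ + β • FA)
  have hF : ∀ o, (F o : ℍ → ℂ) = Φ (cosetEquiv p o) := by
    intro o
    show (δ : ℂ)⁻¹ • (conjFam p g o + β • aForm q) = _
    rw [conjFam_eq hg]
  let v : ℕ → ℤ := fun n ↦
    if p ∣ n ∧ n ≠ 0 then -((p : ℤ) * u * (sigP q (n / p) : ℤ)) else 0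
  have hlift : ∀ o n, DivAlg ℓ ((qExp p (F o)).coeff n - (v n : ℂ)) := by
    intro o n
    have hδ' : (δ : ℂ) ≠ 0 := Int.cast_ne_zero.2 hδ
    have e : (qExp p (F o)).coeff n =
        (δ : ℂ)⁻¹ * ((qExp p ⟨_, conjFam_mem hg o⟩).coeff n +
          β * if p ∣ n then (qExpansion 1 (aForm q)).coeff (n / p) else 0) := by
      simp only [F, map_smul, map_add, PowerSeries.coeff_smul, smul_eq_mul]
      rw [show qExp p FA = qExpansion (p : ℝ) (aForm q) from rfl, qExpansion_coeff_of_one haq]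
    have hu' : (c : ℂ) * (kappa q : ℂ) = (δ : ℂ) * (u : ℂ) := by exact_mod_cast hu
    have hdvd : ∀ k ≠ 0, ∃ z : ℤ, (coeff k G : ℤ) = δ * ℓ * z := fun k hk ↦ hdiv k hk
    cases o with
    | none =>
      rw [e, qExp_conjFam_none hg]
      rcases eq_or_ne n 0 with rfl | hn
      · refine ⟨0, ?_⟩
        simp only [dvd_zero, if_true, Nat.zero_div, ne_eq, not_true, and_false, if_false, v,
          hG.coeff_eq, coeff_aForm h23, β]
        push_cast
        ring
      · by_cases hd : p ∣ n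
        · have hk : n / p ≠ 0 :=
            Nat.div_ne_zero_iff.2 ⟨NeZero.ne p, Nat.le_of_dvd (Nat.pos_of_ne_zero hn) hd⟩
          obtain ⟨z, hz⟩ := hdvd _ hk
          refine ⟨((p : ℤ) * z : ℤ), ?_⟩
          simp only [if_pos hd, if_pos (And.intro hd hn), v, hG.coeff_eq, hz, coeff_aForm h23,
            if_neg hk, β]
          push_cast
          field_simp
          linear_combination (-(p : ℂ) * (sigP q (n / p) : ℂ)) * hu'
        · refine ⟨0, ?_⟩
          simp [if_neg hd, v, hd]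
    | some j =>
      rw [e, qExp_conjFam_some hg]
      rcases eq_or_ne n 0 with rfl | hn
      · obtain ⟨z, hz⟩ := hc
        refine ⟨((-z : ℤ) : AlgInt), ?_⟩
        simp only [dvd_zero, if_true, Nat.zero_div, zero_mul, pow_zero, one_mul, ne_eq, not_true,
          and_false, if_false, v, hG.coeff_eq, coeff_aForm h23, β]
        have hz' : (c : ℂ) * ((p : ℂ) + 1) = (δ : ℂ) * ℓ * (z : ℂ) := by exact_mod_cast hz
        push_cast
        field_simp
        linear_combination (-1 : ℂ) * hz'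
      · obtain ⟨z, hz⟩ := hdvd (n * p) (mul_ne_zero hn (NeZero.ne p))
        refine ⟨-((z : AlgInt) * ⟨_, pow_mem (zetaPow_mem_algInt p j) n⟩), ?_⟩
        by_cases hd : p ∣ n
        · have hk : n / p ≠ 0 :=
            Nat.div_ne_zero_iff.2 ⟨NeZero.ne p, Nat.le_of_dvd (Nat.pos_of_ne_zero hn) hd⟩
          simp only [if_pos hd, if_pos (And.intro hd hn), v, hG.coeff_eq, hz, coeff_aForm h23,
            if_neg hk, β]
          push_cast
          field_simp
          linear_combination (-(p : ℂ) * (sigP q (n / p) : ℂ)) * hu'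
        · simp only [if_neg hd, v, hd, false_and, if_false, hG.coeff_eq, hz]
          push_cast
          field_simp
          ring
  choose D hD using hlift
  let V : AlgInt⟦X⟧ := PowerSeries.mk fun n ↦ (v n : AlgInt)
  let Ψ : Option (Fin p) → AlgInt⟦X⟧ :=
    fun o ↦ V + C (ℓ : AlgInt) * PowerSeries.mk (D o)
  have hΨ : ∀ o, qExp p (F o) = PowerSeries.map (algebraMap AlgInt ℂ) (Ψ o) := by
    intro o
    ext n
    rw [PowerSeries.coeff_map]
    simp only [Ψ, V]
    rw [map_add, coeff_C_mul, coeff_mk, coeff_mk, map_add, map_mul, map_intCast, map_natCast]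
    show _ = (v n : ℂ) + (ℓ : ℂ) * (D o n : ℂ)
    linear_combination hD o n
  -- the symmetric function
  let Sb : AlgInt⟦X⟧ := ∑ s ∈ Finset.powersetCard L Finset.univ, ∏ o ∈ s, Ψ o
  let Es : qFnH p := ∑ s ∈ Finset.powersetCard L Finset.univ, ∏ o ∈ s, F o
  have hEs : (Es : ℍ → ℂ) = esymmFn Φ L := by
    simp only [Es, AddSubmonoidClass.coe_finsetSum, SubmonoidClass.coe_finsetProd, hF]
    rw [esymmFn]
    conv_rhs => rw [← Finset.map_univ_equiv (cosetEquiv p), Finset.powersetCard_map,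
      Finset.sum_map]
    exact Finset.sum_congr rfl fun s _ ↦ (Finset.prod_map s (cosetEquiv p).toEmbedding Φ).symm
  have hSb : qExpansion (p : ℝ) (esymmFn Φ L) = PowerSeries.map (algebraMap AlgInt ℂ) Sb := by
    rw [← hEs, ← qExp_apply, map_sum, map_sum]
    refine Finset.sum_congr rfl fun s _ ↦ ?_
    rw [map_prod, map_prod]
    exact Finset.prod_congr rfl fun o _ ↦ hΨ o
  have hcard : (Fintype.card (Option (Fin p))) = p + 1 := by simp
  set N := Nat.choose (p + 1) L
  have hcong : C (ℓ : AlgInt) ∣ Sb - C (N : AlgInt) * V ^ L := by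
    have : C (N : AlgInt) * V ^ L =
        ∑ s ∈ Finset.powersetCard L (Finset.univ : Finset (Option (Fin p))), ∏ o ∈ s, V := by
      rw [Finset.sum_congr rfl (fun s hs ↦ by
        rw [Finset.prod_const, (Finset.mem_powersetCard.1 hs).2] :
        ∀ s ∈ Finset.powersetCard L (Finset.univ : Finset (Option (Fin p))),
          ∏ _o ∈ s, V = V ^ L), Finset.sum_const, Finset.card_powersetCard, Finset.card_univ,
        hcard, nsmul_eq_mul, map_natCast]
    rw [this, ← Finset.sum_sub_distrib]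
    refine Finset.dvd_sum fun s _ ↦ ?_
    rw [← Ideal.mem_span_singleton, ← Ideal.Quotient.eq_zero_iff_mem, map_sub, map_prod, map_prod,
      sub_eq_zero]
    refine Finset.prod_congr rfl fun o _ ↦ ?_
    rw [Ideal.Quotient.mk_eq_mk_iff_sub_mem, Ideal.mem_span_singleton]
    exact ⟨PowerSeries.mk (D o), by simp [Ψ]⟩
  obtain ⟨R, hR⟩ := hcong
  let w : AlgInt := -((p : AlgInt) * (u : AlgInt))
  have hV : ∃ W : AlgInt⟦X⟧, V = X ^ p * W ∧ coeff 0 W = w := by
    refine ⟨PowerSeries.mk fun n ↦ (v (n + p) : AlgInt), ?_, ?_⟩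
    · ext n
      rw [coeff_X_pow_mul', coeff_mk]
      by_cases hn : p ≤ n
      · rw [if_pos hn, coeff_mk, Nat.sub_add_cancel hn]
      · rw [if_neg hn]
        have : ¬ (p ∣ n ∧ n ≠ 0) := fun ⟨hd, h0⟩ ↦
          hn (Nat.le_of_dvd (Nat.pos_of_ne_zero h0) hd)
        simp only [v, this, if_false, Int.cast_zero]
    · simp [v, w, NeZero.ne p, Nat.div_self (NeZero.pos p), sigP_one (Fact.out : q.Prime)]
  obtain ⟨W, hW, hW0⟩ := hV
  have hcoef : ∀ n : ℕ, (qExpansion 1 (esymmFn Φ L)).coeff n =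
      ((coeff (p * n) Sb : AlgInt) : ℂ) := by
    intro n
    rw [← qExpansion_coeff_mul_of_one (h := p) (mem_qFnH_one hmf), hSb, PowerSeries.coeff_map]
    rfl
  have hSbn : ∀ n : ℕ, coeff n Sb =
      (N : AlgInt) * (if p * L ≤ n then coeff (n - p * L) (W ^ L) else 0) +
        (ℓ : AlgInt) * coeff n R := by
    intro n
    rw [eq_add_of_sub_eq hR, map_add, coeff_C_mul, coeff_C_mul, hW, mul_pow, ← pow_mul,
      coeff_X_pow_mul']
    ring
  have hlow : ∀ n ≤ (2 * L * (q + 1)) / 12,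
      DivAlg ℓ ((qExpansion 1 (esymmFn Φ L)).coeff n) := by
    intro n hn
    have hnL : n < L := by
      have h2 : 2 * L * (q + 1) / 12 < L := by
        rw [Nat.div_lt_iff_lt_mul (by norm_num)]
        rcases h23 with rfl | rfl <;> omega
      omega
    refine ⟨coeff (p * n) R, ?_⟩
    rw [hcoef, hSbn, if_neg (not_le.2 (Nat.mul_lt_mul_of_pos_left hnL (NeZero.pos p)))]
    push_cast
    ring
  obtain ⟨e, he⟩ := sturm_mod h23 ℓ L hmf hlow L
  rw [hcoef, hSbn, if_pos le_rfl, Nat.sub_self, coeff_zero_eq_constantCoeff, map_pow,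
    ← coeff_zero_eq_constantCoeff, hW0] at he
  apply not_dvd_of_algInt hℓ (a := (N : ℤ) * (-((p : ℤ) * u)) ^ L)
  · intro h
    rcases (Nat.prime_iff_prime_int.1 hℓ).dvd_or_dvd h with h | h
    · apply hM
      have hN : N ≡ M [MOD ℓ] := by
        show Nat.choose (p + 1) L ≡ M [MOD ℓ]
        rw [show p + 1 = L * M from hLM]
        exact choose_prime_pow_mul_modEq hℓ a M
      exact (Nat.ModEq.dvd_iff hN (dvd_refl ℓ)).1 (Int.natCast_dvd_natCast.1 h)
    · exact hpu (dvd_neg.1 ((Nat.prime_iff_prime_int.1 hℓ).dvd_of_dvd_pow h))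
  · refine ⟨e - coeff (p * L) R, ?_⟩
    simp only [w] at he
    push_cast at he ⊢
    linear_combination he

end FLTAgent.EisIndex
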