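import Mathlib.NumberTheory.ModularForms.QExpansion
import Mathlib.Analysis.SpecialFunctions.Complex.Circle
import Mathlib.RingTheory.IntegralClosure.IntegrallyClosed
import Mathlib.RingTheory.Polynomial.RationalRoot
import Mathlib.RingTheory.Int.Basic

/-!
Holomorphic functions on the upper half plane of a given period, their expansions, and lifts of
expansions to power series with algebraic integer coefficients.
-/

set_option autoImplicit false

noncomputable section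

namespace FLTAgent.EisIndex

open Function Complex
open UpperHalfPlane hiding I
open scoped Manifold Real

/-- Holomorphic functions of period `h`, bounded at infinity. -/
def qFnH (h : ℕ) : Subalgebra ℂ (ℍ → ℂ) where
  carrier := {f | Periodic (f ∘ ofComplex) (h : ℂ) ∧ MDiff f ∧ IsBoundedAtImInfty f}
  mul_mem' := fun hf hg => ⟨hf.1.mul hg.1, hf.2.1.mul hg.2.1, hf.2.2.mul hg.2.2⟩
  add_mem' := fun hf hg => ⟨hf.1.add hg.1, hf.2.1.add hg.2.1, hf.2.2.add hg.2.2⟩
  algebraMap_mem' c := ⟨fun _ => rfl, mdifferentiable_const, Filter.const_boundedAtFilter atImInfty c⟩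

variable {h : ℕ}

theorem analyticAt_of_mem [NeZero h] {f : ℍ → ℂ} (hf : f ∈ qFnH h) :
    AnalyticAt ℂ (cuspFunction (h : ℝ) f) 0 :=
  analyticAt_cuspFunction_zero (Nat.cast_pos.2 (NeZero.pos h))
    (by simpa using hf.1) hf.2.1 hf.2.2

/-- The expansion in `exp (2 π i τ / h)`, as an algebra map. -/
def qExp (h : ℕ) [NeZero h] : qFnH h →ₐ[ℂ] PowerSeries ℂ where
  toFun f := qExpansion (h : ℝ) (f : ℍ → ℂ)
  map_one' := qExpansion_one _
  map_mul' f g := qExpansion_mul (analyticAt_of_mem f.2) (analyticAt_of_mem g.2)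
  map_zero' := qExpansion_zero _
  map_add' f g := qExpansion_add (analyticAt_of_mem f.2) (analyticAt_of_mem g.2)
  commutes' c := by
    show qExpansion (h : ℝ) (algebraMap ℂ (ℍ → ℂ) c) = algebraMap ℂ (PowerSeries ℂ) c
    rw [Algebra.algebraMap_eq_smul_one, Algebra.algebraMap_eq_smul_one,
      qExpansion_smul (analyticAt_of_mem (qFnH h).one_mem), qExpansion_one]

theorem qExp_apply [NeZero h] (f : qFnH h) : qExp h f = qExpansion (h : ℝ) (f : ℍ → ℂ) := rfl

theorem qExpansion_coeff_eq [NeZero h] {f : ℍ → ℂ} (hf : f ∈ qFnH h) {c : ℕ → ℂ}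
    (hc : ∀ τ : ℍ, HasSum (fun m ↦ c m • Periodic.qParam (h : ℝ) τ ^ m) (f τ)) (m : ℕ) :
    (qExpansion (h : ℝ) f).coeff m = c m := by
  have hh : (0 : ℝ) < h := Nat.cast_pos.2 (NeZero.pos h)
  have h1 := (hasFPowerSeriesOnBall_cuspFunction hh (analyticAt_of_mem hf) hc).hasFPowerSeriesAt
  have h2 := (analyticAt_of_mem (h := h) hf).hasFPowerSeriesAt
  have e := congrArg (FormalMultilinearSeries.coeff · m) (h2.eq_formalMultilinearSeries h1)
  simpa [qExpansion_coeff, div_eq_mul_inv, mul_comm] using e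

theorem hasSum_one {f : ℍ → ℂ} (hf : f ∈ qFnH 1) (τ : ℍ) :
    HasSum (fun m : ℕ ↦ (qExpansion 1 f).coeff m • Periodic.qParam 1 τ ^ m) (f τ) :=
  UpperHalfPlane.hasSum_qExpansion one_pos (by simpa using hf.1) hf.2.1 hf.2.2 τ

theorem mem_qFnH_of_one {f : ℍ → ℂ} (hf : f ∈ qFnH 1) (h : ℕ) : f ∈ qFnH h :=
  ⟨by simpa using hf.1.nat_mul h, hf.2⟩

/-- A function of period one has expansion `∑ a n X ^ (h n)` at period `h`. -/
theorem qExpansion_coeff_of_one [NeZero h] {f : ℍ → ℂ} (hf : f ∈ qFnH 1) (n : ℕ) :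
    (qExpansion (h : ℝ) f).coeff n = if h ∣ n then (qExpansion 1 f).coeff (n / h) else 0 := by
  refine qExpansion_coeff_eq (mem_qFnH_of_one hf h)
    (c := fun n ↦ if h ∣ n then (qExpansion 1 f).coeff (n / h) else 0) (fun τ ↦ ?_) n
  have h0 : h ≠ 0 := NeZero.ne h
  have hinj : Injective fun m : ℕ ↦ h * m := mul_right_injective₀ h0
  refine (hinj.hasSum_iff ?_).1 ?_
  · intro m hm
    rw [if_neg (fun hd ↦ hm ⟨m / h, Nat.mul_div_cancel' hd⟩), zero_smul]
  · convert hasSum_one hf τ using 1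
    funext m
    simp only [comp_apply, dvd_mul_right, if_true, Nat.mul_div_cancel_left m (Nat.pos_of_ne_zero h0)]
    congr 1
    rw [pow_mul]
    congr 1
    simp only [Periodic.qParam, ← Complex.exp_nat_mul]
    congr 1
    push_cast
    field_simp

theorem qExpansion_coeff_mul_of_one [NeZero h] {f : ℍ → ℂ} (hf : f ∈ qFnH 1) (n : ℕ) :
    (qExpansion (h : ℝ) f).coeff (h * n) = (qExpansion 1 f).coeff n := by
  rw [qExpansion_coeff_of_one hf, if_pos (dvd_mul_right h n),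
    Nat.mul_div_cancel_left n (NeZero.pos h)]

/-- The point `(τ + j) / h`. -/
def shiftDiv (h j : ℕ) [NeZero h] (τ : ℍ) : ℍ :=
  ⟨((τ : ℂ) + j) / h, by
    rw [Complex.div_natCast_im]
    refine div_pos ?_ (Nat.cast_pos.2 (NeZero.pos h))
    simp [τ.im_pos]⟩

@[simp] theorem coe_shiftDiv (h j : ℕ) [NeZero h] (τ : ℍ) :
    (shiftDiv h j τ : ℂ) = ((τ : ℂ) + j) / h := rfl

/-- The root of unity `exp (2 π i j / h)`. -/
def zetaPow (h j : ℕ) : ℂ := Complex.exp (2 * π * I * j / h)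

theorem zetaPow_pow_self [NeZero h] (j : ℕ) : zetaPow h j ^ h = 1 := by
  have h0 : (h : ℂ) ≠ 0 := Nat.cast_ne_zero.2 (NeZero.ne h)
  rw [zetaPow, ← Complex.exp_nat_mul, mul_div_cancel₀ _ h0,
    show (2 * π * I * j : ℂ) = ((j : ℕ) : ℂ) * (2 * π * I) by ring, Complex.exp_nat_mul,
    Complex.exp_two_pi_mul_I, one_pow]

theorem qParam_shiftDiv [NeZero h] (j : ℕ) (τ : ℍ) :
    Periodic.qParam 1 (shiftDiv h j τ) = zetaPow h j * Periodic.qParam (h : ℝ) τ := by
  have h0 : (h : ℂ) ≠ 0 := Nat.cast_ne_zero.2 (NeZero.ne h)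
  rw [zetaPow]
  simp only [Periodic.qParam, ← Complex.exp_add, coe_shiftDiv]
  congr 1
  push_cast
  field_simp
  ring

theorem comp_shiftDiv_mem [NeZero h] {f : ℍ → ℂ} (hf : f ∈ qFnH 1) (j : ℕ)
    (hd : MDiff (fun τ ↦ f (shiftDiv h j τ))) : (fun τ ↦ f (shiftDiv h j τ)) ∈ qFnH h := by
  refine ⟨?_, hd, ?_⟩
  · intro w
    simp only [comp_apply]
    rcases lt_or_ge 0 w.im with hw | hw
    · have hw' : 0 < (w + (h : ℂ)).im := by simpa using hw
      rw [ofComplex_apply_of_im_pos hw, ofComplex_apply_of_im_pos hw']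
      have e : (shiftDiv h j ⟨w + h, hw'⟩ : ℂ) = (shiftDiv h j ⟨w, hw⟩ : ℂ) + 1 := by
        have h0 : (h : ℂ) ≠ 0 := Nat.cast_ne_zero.2 (NeZero.ne h)
        simp only [coe_shiftDiv]
        field_simp
        ring
      have := hf.1 (shiftDiv h j ⟨w, hw⟩ : ℂ)
      simp only [comp_apply, Nat.cast_one, ← e, ofComplex_apply] at this
      exact this
    · have hw' : (w + (h : ℂ)).im ≤ 0 := by simpa using hw
      rw [ofComplex_apply_of_im_nonpos hw, ofComplex_apply_of_im_nonpos hw']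
  · have : Filter.Tendsto (shiftDiv h j) atImInfty atImInfty := by
      rw [atImInfty, Filter.tendsto_comap_iff]
      have : (UpperHalfPlane.im ∘ shiftDiv h j) = fun τ : ℍ ↦ τ.im / h := by
        funext τ
        show (((τ : ℂ) + j) / h).im = _
        simp [Complex.div_natCast_im]
      rw [this]
      exact Filter.tendsto_comap.atTop_div_const (Nat.cast_pos.2 (NeZero.pos h))
    exact hf.2.2.comp_tendsto this

theorem qExpansion_coeff_shiftDiv [NeZero h] {f : ℍ → ℂ} (hf : f ∈ qFnH 1) (j : ℕ)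
    (hd : MDiff (fun τ ↦ f (shiftDiv h j τ))) (n : ℕ) :
    (qExpansion (h : ℝ) fun τ ↦ f (shiftDiv h j τ)).coeff n =
      zetaPow h j ^ n * (qExpansion 1 f).coeff n := by
  refine qExpansion_coeff_eq (comp_shiftDiv_mem hf j hd)
    (c := fun n ↦ zetaPow h j ^ n * (qExpansion 1 f).coeff n) (fun τ ↦ ?_) n
  convert hasSum_one hf (shiftDiv h j τ) using 1
  funext m
  rw [qParam_shiftDiv, mul_pow, smul_eq_mul, smul_eq_mul]
  ring

/-- The ring of algebraic integers inside `ℂ`. -/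
abbrev AlgInt : Subalgebra ℤ ℂ := integralClosure ℤ ℂ

theorem zetaPow_mem_algInt (h j : ℕ) [NeZero h] : zetaPow h j ∈ AlgInt :=
  IsIntegral.of_pow (NeZero.pos h) (by rw [zetaPow_pow_self]; exact isIntegral_one)

theorem exists_int_lift {s : PowerSeries ℂ} (hs : ∀ n, s.coeff n ∈ AlgInt) :
    ∃ S : PowerSeries AlgInt, PowerSeries.map (algebraMap AlgInt ℂ) S = s :=
  ⟨PowerSeries.mk fun n ↦ ⟨s.coeff n, hs n⟩, PowerSeries.ext fun n ↦ by simp⟩

theorem intCast_dvd_of_algInt {ℓ : ℤ} (hℓ : ℓ ≠ 0) {a : ℤ} {e : AlgInt}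
    (h : (a : ℂ) = ℓ * (e : ℂ)) : ℓ ∣ a := by
  have hint : IsIntegral ℤ (algebraMap ℚ ℂ ((a : ℚ) / ℓ)) := by
    have : algebraMap ℚ ℂ ((a : ℚ) / ℓ) = (e : ℂ) := by
      have h0 : (ℓ : ℂ) ≠ 0 := Int.cast_ne_zero.2 hℓ
      rw [map_div₀, map_intCast, map_intCast, h]
      field_simp
    rw [this]
    exact e.2
  rw [isIntegral_algebraMap_iff (algebraMap ℚ ℂ).injective,
    IsIntegrallyClosed.isIntegral_iff] at hint
  obtain ⟨b, hb⟩ := hint
  refine ⟨b, ?_⟩
  have h0 : (ℓ : ℚ) ≠ 0 := Int.cast_ne_zero.2 hℓ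
  rw [eq_intCast, eq_div_iff h0] at hb
  rw [mul_comm]
  exact_mod_cast hb.symm

end FLTAgent.EisIndex
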