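import Fermat.Agent.Dim.LevelOneForms
import Fermat.Agent.EisIndex.Cosets
import Fermat.Agent.EisIndex.QSeries
import Fermat.Prelude.Def_ModularForm_HeckeOperator
import Fermat.Prelude.Def_FLTPrelim_Modularity
import Fermat.Prelude.Thm_UpperHalfPlane_qCoeff_heckeU

/-!
Weight two forms on `Γ₀(p)`, `p` prime: the Fricke operator is `-U_p`, so the expansions of all
translates are determined by the expansion at infinity.
-/

set_option autoImplicit false

noncomputable section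

namespace FLTAgent.EisIndex

open UpperHalfPlane hiding I
open Matrix.SpecialLinearGroup CongruenceSubgroup ModularGroup ModularForm
open scoped MatrixGroups ModularForm Manifold

/-- The Fricke matrix, as `S * diag(p, 1)`. -/
def frickeGL (p : ℕ) : GL (Fin 2) ℝ := (S : SL(2, ℤ)) * heckeDiagMatrix p

/-- The Fricke operator in weight two. -/
def frk (p : ℕ) (f : ℍ → ℂ) : ℍ → ℂ := f ∣[(2 : ℤ)] frickeGL p

variable {p : ℕ} {f : ℍ → ℂ}

theorem frk_apply (hp : p ≠ 0) (f : ℍ → ℂ) (τ : ℍ) :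
    frk p f τ = p * (f ∣[(2 : ℤ)] S) (heckeDiagMatrix p • τ) := by
  rw [frk, frickeGL, SlashAction.slash_mul, slash_heckeDiagMatrix_apply _ hp]
  simp [ModularForm.SL_slash]

theorem slash_S_two_apply (f : ℍ → ℂ) (τ : ℍ) :
    (f ∣[(2 : ℤ)] S) τ = f (S • τ) * ((τ : ℂ) ^ 2)⁻¹ := by
  rw [ModularForm.SL_slash_apply, denom_S, zpow_neg]
  norm_num

theorem coe_S_smul (τ : ℍ) : ((S • τ : ℍ) : ℂ) = -(τ : ℂ)⁻¹ := by
  rw [modular_S_smul]
  exact inv_neg

theorem frk_slash_S (hp : p ≠ 0) (f : ℍ → ℂ) (τ : ℍ) (σ : ℍ) (hσ : (σ : ℂ) = (τ : ℂ) / p) :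
    (frk p f ∣[(2 : ℤ)] S) τ = (p : ℂ)⁻¹ * f σ := by
  have hp' : (p : ℂ) ≠ 0 := Nat.cast_ne_zero.2 hp
  have hτ : (τ : ℂ) ≠ 0 := UpperHalfPlane.ne_zero τ
  rw [slash_S_two_apply, frk_apply hp, slash_S_two_apply]
  have e : S • (heckeDiagMatrix p • (S • τ)) = σ := by
    ext
    rw [coe_S_smul, coe_heckeDiagMatrix_smul hp, coe_S_smul, hσ]
    field_simp
  rw [e, coe_heckeDiagMatrix_smul hp, coe_S_smul]
  field_simp

theorem frk_frk (hp : p ≠ 0) (f : ℍ → ℂ) : frk p (frk p f) = f := by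
  funext τ
  have hp' : (p : ℂ) ≠ 0 := Nat.cast_ne_zero.2 hp
  rw [frk_apply hp, frk_slash_S hp f _ τ (by rw [coe_heckeDiagMatrix_smul hp]; field_simp)]
  field_simp

theorem periodic_of_inv {k : ℤ} (hinv : ∀ γ ∈ Gamma0 p, f ∣[k] γ = f) :
    Function.Periodic (f ∘ ofComplex) 1 := by
  intro w
  have hT : T ∈ Gamma0 p := by
    rw [Gamma0_mem]
    simp [coe_T]
  rcases lt_or_ge 0 w.im with hw | hw
  · have hw' : 0 < (w + 1).im := by simpa using hw
    simp only [Function.comp_apply, ofComplex_apply_of_im_pos hw, ofComplex_apply_of_im_pos hw']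
    have h := slash_T_zpow_apply k f 1 ⟨w, hw⟩
    rw [zpow_one, hinv _ hT] at h
    rw [h]
    congr 1
    ext
    simp [add_comm]
  · have hw' : (w + 1).im ≤ 0 := by simpa using hw
    simp [ofComplex_apply_of_im_nonpos hw, ofComplex_apply_of_im_nonpos hw']

theorem mem_qFnH_one {k : ℤ} (hf : Dim.IsMF (Gamma0 p) k f) : f ∈ qFnH 1 :=
  ⟨by simpa using periodic_of_inv hf.inv, hf.holo, hf.bdd'⟩

theorem frickeGL_mul (hp : p ≠ 0) (γ : SL(2, ℤ)) (hγ : γ ∈ Gamma0 p) :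
    ∃ γ' ∈ Gamma0 p, frickeGL p * (γ : GL (Fin 2) ℝ) = (γ' : GL (Fin 2) ℝ) * frickeGL p := by
  obtain ⟨c, hc⟩ := (ZMod.intCast_zmod_eq_zero_iff_dvd _ _).1 (Gamma0_mem.1 hγ)
  have hdet := Dim.col_relation γ
  let γ' : SL(2, ℤ) := ⟨!![γ 1 1, -c; -((p : ℤ) * γ 0 1), γ 0 0], by
    rw [Matrix.det_fin_two_of]
    rw [hc] at hdet
    linear_combination hdet⟩
  refine ⟨γ', Gamma0_mem.2 (by simp [γ']), ?_⟩
  apply Units.ext
  have hc' : ((γ 1 0 : ℤ) : ℝ) = (p : ℝ) * c := by exact_mod_cast hc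
  have eg : ∀ (g : SL(2, ℤ)) (i j : Fin 2),
      ((g : GL (Fin 2) ℝ) : Matrix (Fin 2) (Fin 2) ℝ) i j = (g i j : ℝ) := fun _ _ _ ↦ rfl
  ext i j
  rw [Units.val_mul, Units.val_mul, Matrix.mul_apply, Matrix.mul_apply]
  simp only [frickeGL, Units.val_mul, Matrix.mul_apply, Fin.sum_univ_two, eg,
    val_heckeDiagMatrix hp]
  fin_cases i <;> fin_cases j <;>
    simp [γ', coe_S, hc'] <;> ring

theorem isMF_frk [Fact p.Prime] (hf : Dim.IsMF (Gamma0 p) 2 f) :
    Dim.IsMF (Gamma0 p) 2 (frk p f) := by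
  have hp : p ≠ 0 := (Fact.out : p.Prime).ne_zero
  refine isMF_gamma0_of_prime (MDifferentiable.slash hf.holo 2 _) ?_ ?_ ?_
  · intro γ hγ
    obtain ⟨γ', hγ', e⟩ := frickeGL_mul hp γ hγ
    show (f ∣[(2 : ℤ)] frickeGL p) ∣[(2 : ℤ)] (γ : GL (Fin 2) ℝ) = _
    rw [← SlashAction.slash_mul, e, SlashAction.slash_mul]
    have := hf.inv γ' hγ'
    rw [ModularForm.SL_slash] at this
    rw [this]
    rfl
  · have e : frk p f = fun τ ↦ (p : ℂ) * (f ∣[(2 : ℤ)] S) (heckeDiagMatrix p • τ) :=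
      funext (frk_apply hp f)
    rw [e]
    have ht : Filter.Tendsto (fun τ : ℍ ↦ heckeDiagMatrix p • τ) atImInfty atImInfty := by
      rw [atImInfty, Filter.tendsto_comap_iff]
      have e : (UpperHalfPlane.im ∘ fun τ : ℍ ↦ heckeDiagMatrix p • τ) =
          fun τ : ℍ ↦ (p : ℝ) * τ.im := by
        funext τ
        show ((heckeDiagMatrix p • τ : ℍ) : ℂ).im = _
        rw [coe_heckeDiagMatrix_smul hp]
        simp
      rw [e]
      exact Filter.tendsto_comap.const_mul_atTop (Nat.cast_pos.2 (Nat.pos_of_ne_zero hp))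
    exact ((hf.bdd S).comp_tendsto ht).const_mul_left _
  · haveI : NeZero p := ⟨hp⟩
    have e : frk p f ∣[(2 : ℤ)] S = fun τ ↦ (p : ℂ)⁻¹ * f (shiftDiv p 0 τ) := by
      funext τ
      exact frk_slash_S hp f τ _ (by simp)
    rw [e]
    have ht : Filter.Tendsto (shiftDiv p 0) atImInfty atImInfty := by
      rw [atImInfty, Filter.tendsto_comap_iff]
      have e : (UpperHalfPlane.im ∘ shiftDiv p 0) = fun τ : ℍ ↦ τ.im / p := by
        funext τ
        show (((τ : ℂ) + (0 : ℕ)) / p).im = _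
        simp [Complex.div_natCast_im]
      rw [e]
      exact Filter.tendsto_comap.atTop_div_const (Nat.cast_pos.2 (NeZero.pos p))
    exact (hf.bdd'.comp_tendsto ht).const_mul_left _

/-- The trace to level one of a weight two form vanishes. -/
theorem trace_eq_zero [Fact p.Prime] (hf : Dim.IsMF (Gamma0 p) 2 f) :
    f + ∑ j : Fin p, f ∣[(2 : ℤ)] (S * T ^ ((j : ℕ) : ℤ)) = 0 := by
  haveI : NeZero p := ⟨(Fact.out : p.Prime).ne_zero⟩
  letI : Fintype (Dim.Cosets0 p) := Fintype.ofEquiv _ (cosetEquiv p)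
  have h : Dim.IsMF ⊤ 2 (∑ q : Dim.Cosets0 p, transl hf.inv q) := by
    refine ⟨?_, fun g _ ↦ ?_, fun g ↦ ?_⟩
    · refine Finset.sum_induction _ (fun F : ℍ → ℂ ↦ MDiff F) (fun a b ha hb ↦ ha.add hb)
        mdifferentiable_const fun q _ ↦ ?_
      induction q using QuotientGroup.induction_on with
      | H g => exact MDifferentiable.slash hf.holo _ _
    · rw [SlashAction.sum_slash]
      exact (Finset.sum_congr rfl fun q _ ↦ transl_slash hf.inv q g).trans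
        (Equiv.sum_comp (MulAction.toPerm g⁻¹) (transl hf.inv))
    · rw [SlashAction.sum_slash]
      refine Finset.sum_induction _ IsBoundedAtImInfty (fun a b ha hb ↦ ha.add hb)
        zero_form_isBoundedAtImInfty fun q _ ↦ ?_
      rw [transl_slash]
      induction (g⁻¹ • q) using QuotientGroup.induction_on with
      | H x => exact hf.bdd x⁻¹
  have e := Dim.eq_zero_of_weight_two h
  rw [← Equiv.sum_comp (cosetEquiv p), Fintype.sum_option] at e
  simp only [cosetEquiv_apply, transl_cosetRep_none, transl_cosetRep_some] at e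
  exact e

theorem slash_ST_eq_frk [NeZero p] (f : ℍ → ℂ) (j : ℕ) (τ : ℍ) :
    (f ∣[(2 : ℤ)] (S * T ^ (j : ℤ))) τ = (p : ℂ)⁻¹ * frk p f (shiftDiv p j τ) := by
  have hp : p ≠ 0 := NeZero.ne p
  rw [SlashAction.slash_mul, slash_T_zpow_apply, frk_apply hp]
  have e : heckeDiagMatrix p • shiftDiv p j τ = ((j : ℤ) : ℝ) +ᵥ τ := by
    ext
    rw [coe_heckeDiagMatrix_smul hp, coe_shiftDiv, coe_vadd]
    field_simp
    push_cast
    ring
  rw [e, ← mul_assoc, inv_mul_cancel₀ (Nat.cast_ne_zero.2 hp), one_mul]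

/-- On weight two forms of prime level the Fricke operator is `-U_p`. -/
theorem frk_eq_neg_heckeU [Fact p.Prime] (hf : Dim.IsMF (Gamma0 p) 2 f) :
    frk p f = -heckeU 2 p f := by
  have hp : p ≠ 0 := (Fact.out : p.Prime).ne_zero
  haveI : NeZero p := ⟨hp⟩
  have h := trace_eq_zero (isMF_frk hf)
  refine eq_neg_iff_add_eq_zero.2 ?_
  funext τ
  have h' := congrFun h τ
  simp only [Pi.add_apply, Finset.sum_apply, slash_ST_eq_frk (p := p), frk_frk hp] at h' ⊢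
  rw [heckeU_apply 2 hp, Finset.mul_sum]
  rw [← h']
  congr 1
  rw [Fin.sum_univ_eq_sum_range (fun j ↦ (p : ℂ)⁻¹ * f (shiftDiv p j τ))]
  refine Finset.sum_congr rfl fun j _ ↦ ?_
  congr 2
  ext
  rw [coe_heckeMatrix_smul hp, coe_shiftDiv]

theorem isMF_heckeU [Fact p.Prime] (hf : Dim.IsMF (Gamma0 p) 2 f) :
    Dim.IsMF (Gamma0 p) 2 (heckeU 2 p f) := by
  have e : heckeU 2 p f = (-1 : ℂ) • frk p f := by rw [frk_eq_neg_heckeU hf]; simp
  exact e ▸ (isMF_frk hf).smul (-1)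

theorem slash_ST_eq [Fact p.Prime] [NeZero p] (hf : Dim.IsMF (Gamma0 p) 2 f) (j : ℕ) (τ : ℍ) :
    (f ∣[(2 : ℤ)] (S * T ^ (j : ℤ))) τ = -((p : ℂ)⁻¹ * heckeU 2 p f (shiftDiv p j τ)) := by
  rw [slash_ST_eq_frk (p := p), frk_eq_neg_heckeU hf, Pi.neg_apply, mul_neg]

theorem mdifferentiable_comp_shiftDiv [NeZero p] {g : ℍ → ℂ} (hg : MDiff g) (j : ℕ) :
    MDiff fun τ ↦ g (shiftDiv p j τ) := by
  have hp : p ≠ 0 := NeZero.ne p
  have e : (fun τ ↦ g (shiftDiv p j τ)) = (p : ℂ) • (g ∣[(2 : ℤ)] heckeMatrix p j) := by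
    funext τ
    rw [Pi.smul_apply, slash_heckeMatrix_apply _ hp, smul_eq_mul, ← mul_assoc,
      mul_inv_cancel₀ (Nat.cast_ne_zero.2 hp), one_mul]
    congr 1
    ext
    rw [coe_heckeMatrix_smul hp, coe_shiftDiv]
  rw [e]
  exact (MDifferentiable.slash hg 2 _).const_smul _

theorem coeff_heckeU (hp : p ≠ 0) {g : ℍ → ℂ} (hg : g ∈ qFnH 1) (n : ℕ) :
    (qExpansion 1 (heckeU 2 p g)).coeff n = (qExpansion 1 g).coeff (n * p) :=
  UpperHalfPlane.qCoeff_heckeU (by simpa using hg.1) hg.2.1 hg.2.2 2 hp n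

end FLTAgent.EisIndex
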