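import Fermat.Agent.EisIndex.Congr
import Fermat.Prelude.Thm_ModularForm_sturm_bound_Gamma0

/-!
Integral echelon families at levels two and three, and the Sturm bound modulo `ℓ` for forms with
algebraic integer coefficients at those levels.
-/

set_option autoImplicit false

noncomputable section

namespace FLTAgent.EisIndex

open UpperHalfPlane hiding I
open Matrix.SpecialLinearGroup CongruenceSubgroup ModularGroup ModularForm PowerSeries
open Filter
open scoped MatrixGroups ModularForm Manifold ArithmeticFunction.sigma Topology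

variable {q : ℕ} [Fact q.Prime]

/-- Slash-invariant dilates of level one forms. -/
theorem isMF_dilate {k : ℤ} {F : ℍ → ℂ} (hF : Dim.IsMF ⊤ k F) :
    Dim.IsMF (Gamma0 q) k (fun τ ↦ F (heckeDiagMatrix q • τ)) := by
  have hq : q ≠ 0 := (Fact.out : q.Prime).ne_zero
  have hq' : (q : ℂ) ≠ 0 := Nat.cast_ne_zero.2 hq
  have hF1 : F ∈ qFnH 1 := mem_qFnH_one (p := q) (hF.mono le_top)
  have e : (fun τ ↦ F (heckeDiagMatrix q • τ)) =
      ((q : ℂ) ^ (k - 1))⁻¹ • (F ∣[k] heckeDiagMatrix q) := by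
    funext τ
    rw [Pi.smul_apply, slash_heckeDiagMatrix_apply k hq, smul_eq_mul, ← mul_assoc,
      inv_mul_cancel₀ (zpow_ne_zero _ hq'), one_mul]
  have hd : MDiff fun τ ↦ F (heckeDiagMatrix q • τ) :=
    e ▸ (MDifferentiable.slash hF.holo k _).const_smul _
  refine isMF_gamma0_of_prime hd ?_ (comp_diag_mem hq hF1 hd).2.2 ?_
  · intro γ hγ
    obtain ⟨γ', -, -, hγ'⟩ := heckeDiag_mul hq γ hγ
    have hinv := hF.inv γ' trivial
    rw [ModularForm.SL_slash] at hinv
    rw [e, ModularForm.SL_smul_slash, ModularForm.SL_slash, ← SlashAction.slash_mul, hγ',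
      SlashAction.slash_mul, hinv]
  · have eS : (fun τ ↦ F (heckeDiagMatrix q • τ)) ∣[k] S =
        fun τ ↦ ((q : ℂ) ^ k)⁻¹ * F (shiftDiv q 0 τ) := by
      funext τ
      have hτ : (τ : ℂ) ≠ 0 := UpperHalfPlane.ne_zero τ
      have hpt : heckeDiagMatrix q • (S • τ) = S • shiftDiv q 0 τ := by
        ext
        rw [coe_heckeDiagMatrix_smul hq, coe_S_smul, coe_S_smul, coe_shiftDiv]
        push_cast
        rw [add_zero]
        field_simp
      have hS := congrFun (hF.inv S trivial) (shiftDiv q 0 τ)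
      rw [ModularForm.SL_slash_apply, denom_S] at hS
      rw [ModularForm.SL_slash_apply, denom_S, hpt]
      conv_rhs => rw [← hS]
      rw [coe_shiftDiv]
      push_cast
      rw [add_zero, div_zpow, zpow_neg, zpow_neg, ← hpt]
      field_simp
    rw [eS]
    have ht : Tendsto (shiftDiv q 0) atImInfty atImInfty := by
      rw [atImInfty, tendsto_comap_iff]
      have e : (UpperHalfPlane.im ∘ shiftDiv q 0) = fun τ : ℍ ↦ τ.im / q := by
        funext τ
        show (((τ : ℂ) + (0 : ℕ)) / q).im = _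
        simp [Complex.div_natCast_im]
      rw [e]
      exact tendsto_comap.atTop_div_const (Nat.cast_pos.2 (Nat.pos_of_ne_zero hq))
    exact (hF.bdd'.comp_tendsto ht).const_mul_left _

/-- A form on `Γ₀(q)` with integral expansion starting with `X ^ i`. -/
def Lead (q : ℕ) (k : ℤ) (f : ℍ → ℂ) (i : ℕ) : Prop :=
  Dim.IsMF (Gamma0 q) k f ∧ ∃ A : ℤ⟦X⟧, HasSeries f (X ^ i * A) ∧ coeff 0 A = 1

theorem hasSeries_mul {k l : ℤ} {f g : ℍ → ℂ} {A B : ℤ⟦X⟧}
    (hf : Dim.IsMF (Gamma0 q) k f) (hg : Dim.IsMF (Gamma0 q) l g)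
    (hA : HasSeries f A) (hB : HasSeries g B) : HasSeries (f * g) (A * B) := by
  have h := map_mul (qExp 1) ⟨_, mem_qFnH_one hf⟩ ⟨_, mem_qFnH_one hg⟩
  simp only [qExp_apply, Nat.cast_one] at h
  show qExpansion 1 (f * g) = _
  rw [map_mul, ← hA.series_eq, ← hB.series_eq]
  exact h

theorem Lead.mul {k l : ℤ} {f g : ℍ → ℂ} {i j : ℕ} (hf : Lead q k f i) (hg : Lead q l g j) :
    Lead q (k + l) (f * g) (i + j) := by
  obtain ⟨hf', A, hA, hA0⟩ := hf
  obtain ⟨hg', B, hB, hB0⟩ := hg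
  refine ⟨hf'.mul hg', A * B, ?_, ?_⟩
  · have := hasSeries_mul hf' hg' hA hB
    rwa [mul_mul_mul_comm, ← pow_add] at this
  · rw [coeff_zero_eq_constantCoeff, map_mul, ← coeff_zero_eq_constantCoeff, hA0, hB0, one_mul]

theorem Lead.pow {k : ℤ} {f : ℍ → ℂ} {i : ℕ} (hf : Lead q k f i) (n : ℕ) :
    Lead q ((n : ℤ) * k) (f ^ n) (n * i) := by
  induction n with
  | zero =>
    refine ⟨by simpa using (Dim.IsMF.one (Γ := Gamma0 q)), 1, ?_, by simp⟩
    show qExpansion 1 _ = _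
    simp [qExpansion_one]
  | succ n ih =>
    rw [pow_succ, show ((n + 1 : ℕ) : ℤ) * k = (n : ℤ) * k + k by push_cast; ring, add_one_mul]
    exact ih.mul hf

theorem Lead.cast {k l : ℤ} {f : ℍ → ℂ} {i j : ℕ} (hf : Lead q k f i) (hk : k = l) (hi : i = j) :
    Lead q l f j := hk ▸ hi ▸ hf

theorem qExpansion_lincomb {k : ℤ} {f g : ℍ → ℂ} (hf : Dim.IsMF (Gamma0 q) k f)
    (hg : Dim.IsMF (Gamma0 q) k g) (a b : ℂ) :
    qExpansion 1 (a • f + b • g) = a • qExpansion 1 f + b • qExpansion 1 g := by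
  have h := map_add (qExp 1) (a • ⟨_, mem_qFnH_one hf⟩) (b • ⟨_, mem_qFnH_one hg⟩)
  rw [map_smul, map_smul] at h
  simp only [qExp_apply, Nat.cast_one] at h
  exact h

theorem eq_zero_of_coeff {k : ℤ} {f : ℍ → ℂ} (hf : Dim.IsMF (Gamma0 q) k f)
    (h : ∀ n ≤ (k * ((q : ℤ) + 1)).toNat / 12, (qExpansion 1 f).coeff n = 0) : f = 0 := by
  have hidx := index_gamma0_prime (Fact.out : q.Prime)
  have h2 := ModularForm.sturm_bound_Gamma0 q hf.toMF fun n hn ↦ h n (by
    rw [hidx] at hn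
    exact_mod_cast hn)
  exact congrArg DFunLike.coe h2

/-- The normalised form `a` of weight two and level two or three. -/
def aForm (q : ℕ) : ℍ → ℂ := ((q : ℂ) - 1)⁻¹ • eisTwo q

/-- The integer `24 / (q - 1)`. -/
def kappa (q : ℕ) : ℤ := if q = 2 then 24 else 12

theorem coeff_aForm (h23 : q = 2 ∨ q = 3) (n : ℕ) :
    (qExpansion 1 (aForm q)).coeff n =
      ((if n = 0 then 1 else kappa q * (sigP q n : ℤ) : ℤ) : ℂ) := by
  have hq : q.Prime := Fact.out
  have hm := eisTwo_mem hq.ne_zero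
  have e : qExpansion 1 (aForm q) = ((q : ℂ) - 1)⁻¹ • qExpansion 1 (eisTwo q) := by
    have h := map_smul (qExp 1) (((q : ℂ) - 1)⁻¹) ⟨_, hm⟩
    simp only [qExp_apply, Nat.cast_one] at h
    exact h
  rw [e, PowerSeries.coeff_smul, coeff_eisTwo hq, smul_eq_mul]
  rcases eq_or_ne n 0 with rfl | hn
  · rcases h23 with rfl | rfl <;> norm_num
  · rw [if_neg hn, if_neg hn]
    rcases h23 with rfl | rfl
    · norm_num [kappa]
    · norm_num [kappa]
      ring

theorem lead_aForm (h23 : q = 2 ∨ q = 3) : Lead q 2 (aForm q) 0 := by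
  refine ⟨isMF_eisTwo.smul _,
    PowerSeries.mk fun n ↦ if n = 0 then 1 else kappa q * (sigP q n : ℤ), ?_, by simp⟩
  rw [pow_zero, one_mul]
  exact hasSeries_of_coeff fun n ↦ by rw [coeff_aForm h23, coeff_mk]

/-- The weight four form `(E₄(τ) - E₄(qτ))/240`. -/
def xForm (q : ℕ) : ℍ → ℂ :=
  (240 : ℂ)⁻¹ • (E₄ : ℍ → ℂ) + (-(240 : ℂ)⁻¹) • fun τ ↦ (E₄ : ℍ → ℂ) (heckeDiagMatrix q • τ)

theorem coeff_xForm (n : ℕ) :
    (qExpansion 1 (xForm q)).coeff n =
      ((if n = 0 then 0 else (σ 3 n : ℤ) - if q ∣ n then (σ 3 (n / q) : ℤ) else 0 : ℤ) : ℂ) := by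
  have hq : q.Prime := Fact.out
  have hE : Dim.IsMF (Gamma0 q) 4 (E₄ : ℍ → ℂ) := Dim.isMF_E4.mono le_top
  have hD : Dim.IsMF (Gamma0 q) 4 (fun τ ↦ (E₄ : ℍ → ℂ) (heckeDiagMatrix q • τ)) :=
    isMF_dilate Dim.isMF_E4
  rw [xForm, qExpansion_lincomb hE hD, map_add, PowerSeries.coeff_smul, PowerSeries.coeff_smul,
    qExpansion_coeff_diag hq.ne_zero (mem_qFnH_one hE) hD.holo, coeff_E₄, coeff_E₄]
  rcases eq_or_ne n 0 with rfl | hn
  · simp
  · rw [if_neg hn, if_neg hn]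
    by_cases hd : q ∣ n
    · have : n / q ≠ 0 :=
        Nat.div_ne_zero_iff.2 ⟨hq.ne_zero, Nat.le_of_dvd (Nat.pos_of_ne_zero hn) hd⟩
      rw [if_pos hd, if_pos hd, if_neg this]
      push_cast
      simp only [smul_eq_mul]
      ring
    · rw [if_neg hd, if_neg hd]
      push_cast
      simp only [smul_eq_mul]
      ring

theorem lead_xForm : Lead q 4 (xForm q) 1 := by
  have hq : q.Prime := Fact.out
  refine ⟨((Dim.isMF_E4.mono le_top).smul _).add ((isMF_dilate Dim.isMF_E4).smul _),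
    PowerSeries.mk fun n ↦ ((σ 3 (n + 1) : ℤ) - if q ∣ n + 1 then (σ 3 ((n + 1) / q) : ℤ) else 0),
    hasSeries_of_coeff fun n ↦ ?_, by simp [hq.ne_one]⟩
  rw [coeff_xForm, pow_one]
  cases n with
  | zero => simp
  | succ n => rw [coeff_succ_X_mul, coeff_mk, if_neg (Nat.succ_ne_zero n)]

/-- The weight six form of level three starting with `q²`. -/
def cForm : ℍ → ℂ :=
  (216 : ℂ)⁻¹ • ((1 : ℂ) • (fun τ ↦ (E₆ : ℍ → ℂ) (heckeDiagMatrix 3 • τ)) +
    (36 : ℂ) • (aForm 3 * xForm 3)) + (-(216 : ℂ)⁻¹) • (aForm 3 * aForm 3 * aForm 3)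

theorem coeff_one_mul' {R : Type*} [CommRing R] (A B : PowerSeries R) :
    coeff 1 (A * B) = coeff 0 A * coeff 1 B + coeff 1 A * coeff 0 B := by
  rw [PowerSeries.coeff_mul, show Finset.HasAntidiagonal.antidiagonal 1 = {(0, 1), (1, 0)} by decide]
  simp

theorem coeff_zero_mul' {R : Type*} [CommRing R] (A B : PowerSeries R) :
    coeff 0 (A * B) = coeff 0 A * coeff 0 B := by
  simp only [coeff_zero_eq_constantCoeff, map_mul]

theorem coeff_two_mul' {R : Type*} [CommRing R] (A B : PowerSeries R) :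
    coeff 2 (A * B) =
      coeff 0 A * coeff 2 B + coeff 1 A * coeff 1 B + coeff 2 A * coeff 0 B := by
  rw [PowerSeries.coeff_mul,
    show Finset.HasAntidiagonal.antidiagonal 2 = {(0, 2), (1, 1), (2, 0)} by decide]
  simp [add_assoc]

theorem lead_cForm : Lead 3 6 cForm 2 := by
  have : Fact (Nat.Prime 3) := ⟨Nat.prime_three⟩
  have ha := lead_aForm (q := 3) (Or.inr rfl)
  have hx := lead_xForm (q := 3)
  have hE : Dim.IsMF (Gamma0 3) 6 (fun τ ↦ (E₆ : ℍ → ℂ) (heckeDiagMatrix 3 • τ)) :=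
    isMF_dilate Dim.isMF_E6
  have hax : Dim.IsMF (Gamma0 3) 6 (aForm 3 * xForm 3) := (ha.1.mul hx.1).cast (by norm_num)
  have haa : Dim.IsMF (Gamma0 3) 6 (aForm 3 * aForm 3 * aForm 3) :=
    ((ha.1.mul ha.1).mul ha.1).cast (by norm_num)
  have hinner : Dim.IsMF (Gamma0 3) 6
      ((1 : ℂ) • (fun τ ↦ (E₆ : ℍ → ℂ) (heckeDiagMatrix 3 • τ)) +
        (36 : ℂ) • (aForm 3 * xForm 3)) := (hE.smul 1).add (hax.smul 36)
  have hC : Dim.IsMF (Gamma0 3) 6 cForm := (hinner.smul _).add (haa.smul _)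
  have mulS : ∀ {k l : ℤ} {f g : ℍ → ℂ}, Dim.IsMF (Gamma0 3) k f → Dim.IsMF (Gamma0 3) l g →
      qExpansion 1 (f * g) = qExpansion 1 f * qExpansion 1 g := by
    intro k l f g hf hg
    have h := map_mul (qExp 1) ⟨_, mem_qFnH_one hf⟩ ⟨_, mem_qFnH_one hg⟩
    simp only [qExp_apply, Nat.cast_one] at h
    exact h
  set a := qExpansion 1 (aForm 3) with hadef
  set x := qExpansion 1 (xForm 3) with hxdef
  set e := qExpansion 1 (fun τ ↦ (E₆ : ℍ → ℂ) (heckeDiagMatrix 3 • τ)) with hedef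
  have a0 : a.coeff 0 = 1 := by rw [hadef, coeff_aForm (Or.inr rfl)]; simp
  have a1 : a.coeff 1 = 12 := by
    rw [hadef, coeff_aForm (Or.inr rfl)]
    norm_num [kappa, sigP_one Nat.prime_three]
  have a2 : a.coeff 2 = 36 := by
    rw [hadef, coeff_aForm (Or.inr rfl), sigP_prime Nat.prime_three Nat.prime_two (by norm_num)]
    norm_num [kappa]
  have x0 : x.coeff 0 = 0 := by rw [hxdef, coeff_xForm]; simp
  have x1 : x.coeff 1 = 1 := by rw [hxdef, coeff_xForm]; norm_num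
  have x2 : x.coeff 2 = 9 := by rw [hxdef, coeff_xForm]; norm_num [sigma_three_two]
  have hE6 : (E₆ : ℍ → ℂ) ∈ qFnH 1 := mem_qFnH_one (p := 3) (Dim.isMF_E6.mono le_top)
  have e0 : e.coeff 0 = 1 := by
    rw [hedef, qExpansion_coeff_diag (by norm_num) hE6 hE.holo, if_pos (dvd_zero 3),
      Nat.zero_div]
    exact EisensteinSeries.E_qExpansion_coeff_zero _ ⟨3, rfl⟩
  have e1 : e.coeff 1 = 0 := by
    rw [hedef, qExpansion_coeff_diag (by norm_num) hE6 hE.holo, if_neg (by norm_num)]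
  have e2 : e.coeff 2 = 0 := by
    rw [hedef, qExpansion_coeff_diag (by norm_num) hE6 hE.holo, if_neg (by norm_num)]
  have hser : qExpansion 1 cForm = (216 : ℂ)⁻¹ • ((1 : ℂ) • e + (36 : ℂ) • (a * x)) +
      (-(216 : ℂ)⁻¹) • (a * a * a) := by
    rw [cForm, qExpansion_lincomb hinner haa, qExpansion_lincomb hE hax, mulS ha.1 hx.1,
      mulS (ha.1.mul ha.1) ha.1, mulS ha.1 ha.1]
  set c := qExpansion 1 cForm with hcdef
  have c0 : c.coeff 0 = 0 := by
    rw [hser]
    simp only [map_add, PowerSeries.coeff_smul, smul_eq_mul, coeff_zero_mul', e0, a0, x0]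
    norm_num
  have c1 : c.coeff 1 = 0 := by
    rw [hser]
    simp only [map_add, PowerSeries.coeff_smul, smul_eq_mul, coeff_one_mul', coeff_zero_mul',
      e1, a0, a1, x0, x1]
    norm_num
  have c2 : c.coeff 2 = 1 := by
    rw [hser]
    simp only [map_add, PowerSeries.coeff_smul, smul_eq_mul, coeff_one_mul', coeff_two_mul',
      coeff_zero_mul', e2, a0, a1, a2, x0, x1, x2]
    norm_num
  have h8 : aForm 3 * cForm = xForm 3 * xForm 3 := by
    have hac : Dim.IsMF (Gamma0 3) 8 (aForm 3 * cForm) := (ha.1.mul hC).cast (by norm_num)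
    have hxx : Dim.IsMF (Gamma0 3) 8 (xForm 3 * xForm 3) := (hx.1.mul hx.1).cast (by norm_num)
    refine sub_eq_zero.1 (eq_zero_of_coeff (hac.sub hxx) fun n hn ↦ ?_)
    have e : qExpansion 1 (aForm 3 * cForm - xForm 3 * xForm 3) = a * c - x * x := by
      have h := map_sub (qExp 1) ⟨_, mem_qFnH_one hac⟩ ⟨_, mem_qFnH_one hxx⟩
      simp only [qExp_apply, Nat.cast_one] at h
      rw [hadef, hcdef, hxdef, ← mulS ha.1 hC, ← mulS hx.1 hx.1]
      exact h
    rw [e]
    have hn2 : n ≤ 2 := le_trans hn (by decide)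
    interval_cases n
    · rw [map_sub, coeff_zero_mul', coeff_zero_mul', c0, x0]
      ring
    · rw [map_sub, coeff_one_mul', coeff_one_mul', c0, c1, x0]
      ring
    · rw [map_sub, coeff_two_mul', coeff_two_mul', a0, c0, c1, c2, x0, x1]
      ring
  have haMF := ha.1
  obtain ⟨-, A, hA, hA0⟩ := ha
  obtain ⟨-, B, hB, hB0⟩ := hx
  rw [pow_zero, one_mul] at hA
  obtain ⟨u, hu⟩ : IsUnit A := by
    rw [PowerSeries.isUnit_iff_constantCoeff, ← coeff_zero_eq_constantCoeff, hA0]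
    exact isUnit_one
  refine ⟨hC, (↑u⁻¹ : ℤ⟦X⟧) * (B * B), ?_, ?_⟩
  · show c = _
    have h := congrArg (qExpansion 1) h8
    rw [mulS haMF hC,
      mulS (lead_xForm (q := 3)).1 (lead_xForm (q := 3)).1] at h
    rw [hA.series_eq, hB.series_eq, ← map_mul] at h
    have hne : PowerSeries.map (Int.castRingHom ℂ) A ≠ 0 := by
      intro hz
      have := congrArg (coeff 0) hz
      rw [PowerSeries.coeff_map, hA0] at this
      simp at this
    apply mul_left_cancel₀ hne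
    rw [h, ← map_mul]
    congr 1
    rw [mul_left_comm A, ← mul_assoc A, ← hu, Units.mul_inv, one_mul]
    ring
  · have hu0 : coeff 0 (↑u⁻¹ : ℤ⟦X⟧) = 1 := by
      have h := congrArg (coeff 0) (Units.mul_inv u)
      rw [coeff_zero_eq_constantCoeff, map_mul, map_one, hu, ← coeff_zero_eq_constantCoeff, hA0,
        one_mul] at h
      exact h
    rw [coeff_zero_eq_constantCoeff, map_mul, map_mul, ← coeff_zero_eq_constantCoeff, hu0, hB0]
    norm_num

theorem exists_lead (h23 : q = 2 ∨ q = 3) (L i : ℕ) (hi : i ≤ (2 * L * (q + 1)) / 12) :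
    ∃ b : ℍ → ℂ, Lead q (2 * (L : ℤ)) b i := by
  rcases h23 with rfl | rfl
  · have h1 : 2 * i ≤ L := by omega
    exact ⟨_, ((lead_xForm.pow i).mul ((lead_aForm (Or.inl rfl)).pow (L - 2 * i))).cast
      (by push_cast [h1]; ring) (by simp)⟩
  · have h1 : 3 * i ≤ 2 * L := by omega
    rcases Nat.even_or_odd' i with ⟨r, rfl | rfl⟩
    · have h2 : 3 * r ≤ L := by omega
      exact ⟨_, ((lead_cForm.pow r).mul ((lead_aForm (Or.inr rfl)).pow (L - 3 * r))).cast
        (by push_cast [h2]; ring) (by omega)⟩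
    · have h2 : 3 * r + 2 ≤ L := by omega
      exact ⟨_, (lead_xForm.mul ((lead_cForm.pow r).mul
        ((lead_aForm (Or.inr rfl)).pow (L - (3 * r + 2))))).cast
        (by push_cast [h2]; ring) (by omega)⟩

/-- Multiples of `ℓ` by algebraic integers. -/
def DivAlg (ℓ : ℕ) (x : ℂ) : Prop := ∃ e : AlgInt, x = (ℓ : ℂ) * (e : ℂ)

theorem DivAlg.sub_mul {ℓ : ℕ} {x c : ℂ} (hx : DivAlg ℓ x) (hc : DivAlg ℓ c) (a : ℤ) :
    DivAlg ℓ (x - c * (a : ℂ)) := by
  obtain ⟨e, rfl⟩ := hx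
  obtain ⟨d, rfl⟩ := hc
  exact ⟨e - d * (a : AlgInt), by push_cast; ring⟩

/-- Sturm's bound modulo `ℓ` at levels two and three. -/
theorem sturm_mod (h23 : q = 2 ∨ q = 3) (ℓ L : ℕ) {G : ℍ → ℂ}
    (hG : Dim.IsMF (Gamma0 q) (2 * (L : ℤ)) G)
    (hlow : ∀ n ≤ (2 * L * (q + 1)) / 12, DivAlg ℓ ((qExpansion 1 G).coeff n)) (n : ℕ) :
    DivAlg ℓ ((qExpansion 1 G).coeff n) := by
  have key : ∀ m ≤ (2 * L * (q + 1)) / 12 + 1, ∃ G' : ℍ → ℂ,
      Dim.IsMF (Gamma0 q) (2 * (L : ℤ)) G' ∧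
      (∀ j < m, (qExpansion 1 G').coeff j = 0) ∧
      ∀ j, DivAlg ℓ ((qExpansion 1 G').coeff j) ↔ DivAlg ℓ ((qExpansion 1 G).coeff j) := by
    intro m hm
    induction m with
    | zero => exact ⟨G, hG, fun j hj ↦ absurd hj j.not_lt_zero, fun j ↦ Iff.rfl⟩
    | succ m ih =>
      obtain ⟨G', hG', h0, heq⟩ := ih (by omega)
      obtain ⟨b, hb, A, hA, hA0⟩ := exists_lead h23 L m (by omega)
      set c := (qExpansion 1 G').coeff m
      have hc : DivAlg ℓ c := (heq m).2 (hlow m (by omega))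
      refine ⟨(1 : ℂ) • G' + (-c) • b, (hG'.smul 1).add (hb.smul _), ?_, ?_⟩
      · intro j hj
        rw [qExpansion_lincomb hG' hb, map_add, PowerSeries.coeff_smul, PowerSeries.coeff_smul,
          hA.coeff_eq, coeff_X_pow_mul']
        rcases eq_or_lt_of_le (Nat.le_of_lt_succ hj) with rfl | hlt
        · rw [if_pos le_rfl, Nat.sub_self, hA0]
          simp only [smul_eq_mul, c]
          push_cast
          ring
        · rw [if_neg (not_le.2 hlt), h0 j hlt]
          simp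
      · intro j
        rw [qExpansion_lincomb hG' hb, map_add, PowerSeries.coeff_smul, PowerSeries.coeff_smul,
          hA.coeff_eq, ← heq j]
        set a := coeff j (X ^ m * A)
        constructor
        · intro h
          have := h.sub_mul hc (-a)
          push_cast at this
          simpa [sub_eq_add_neg, mul_neg, neg_mul] using this
        · intro h
          have := h.sub_mul hc a
          simpa [sub_eq_add_neg, mul_neg, neg_mul] using this
  obtain ⟨G', hG', h0, heq⟩ := key _ le_rfl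
  have hz : G' = 0 := eq_zero_of_coeff hG' fun j hj ↦ h0 j (by
    have : ((2 * (L : ℤ)) * ((q : ℤ) + 1)).toNat = 2 * L * (q + 1) := by
      rw [show (2 * (L : ℤ)) * ((q : ℤ) + 1) = ((2 * L * (q + 1) : ℕ) : ℤ) by push_cast; ring,
        Int.toNat_natCast]
    rw [this] at hj
    omega)
  refine (heq n).1 ⟨0, ?_⟩
  subst hz
  simp [qExpansion_zero]

end FLTAgent.EisIndex
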