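import Fermat.Agent.EisIndex.Action
import Fermat.Agent.EisIndex.Cusp
import Fermat.Agent.EisIndex.EisTwo
import Fermat.Agent.EisIndex.Theta.Modular
import Fermat.Prelude.Def_ModularCurve_ModularUnit

/-!
The lower bound: a cusp form congruent to a multiple of the Eisenstein series modulo the numerator
of `(p - 1) / 12`.
-/

set_option autoImplicit false

noncomputable section

namespace FLTAgent.EisIndex

open CongruenceSubgroup ModularFormClass ModularCurve

variable {p : ℕ} [Fact p.Prime]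

/-- An integral cusp form congruent to a unit multiple of `∑ σ'(k) qᵏ`. -/
theorem exists_congr_form (hp2 : p ≠ 2) :
    ∃ (g₀ : ↥(CuspForm.intLattice p 2)) (d : ℕ), Nat.Coprime d (eisensteinNumerator p) ∧
      ∀ k, k ≠ 0 → (eisensteinNumerator p : ℤ) ∣ coefZ p g₀ k - d * sigP p k := by
  have hp : p.Prime := Fact.out
  obtain ⟨F, r, hF, hr0, hr2, hr⟩ := Theta.exists_form (p := p) hp2
  set g := Nat.gcd (p - 1) 12 with hgdef
  have hgpos : 0 < g := Nat.gcd_pos_of_pos_right _ (by norm_num)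
  obtain ⟨d, hd⟩ : g ∣ 12 := Nat.gcd_dvd_right _ _
  have hn : g * eisensteinNumerator p = p - 1 := Nat.mul_div_cancel' (Nat.gcd_dvd_left _ _)
  have hd' : d = 12 / g := by rw [hd, Nat.mul_div_cancel_left _ hgpos]
  have hcop : Nat.Coprime d (eisensteinNumerator p) := by
    rw [hd', eisensteinNumerator, ← hgdef]
    exact (Nat.coprime_div_gcd_div_gcd hgpos).symm
  have hcd : ((p : ℂ) - 1) * d = 12 * (eisensteinNumerator p : ℂ) := by
    have h1 : (p - 1) * d = 12 * eisensteinNumerator p := by rw [← hn, hd]; ring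
    have h2 := congrArg (fun x : ℕ ↦ (x : ℂ)) h1
    simpa [Nat.cast_sub hp.one_le] using h2
  set f : UpperHalfPlane → ℂ := ((d : ℂ) / 24) • (eisTwo p - ((p : ℂ) - 1) • F) with hfdef
  have hf : Dim.IsMF (Gamma0 p) 2 f := ((isMF_eisTwo).sub (hF.smul _)).smul _
  have hcoeff : ∀ k, (UpperHalfPlane.qExpansion 1 f).coeff k =
      (d : ℂ) / 24 * ((UpperHalfPlane.qExpansion 1 (eisTwo p)).coeff k - ((p : ℂ) - 1) * r k) := by
    intro k
    have h1 := mem_qFnH_one (p := p) (isMF_eisTwo (q := p))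
    have h2 := mem_qFnH_one hF
    have e := congrArg (fun s : PowerSeries ℂ ↦ s.coeff k)
      (show qExp 1 (((d : ℂ) / 24) • (⟨_, h1⟩ - ((p : ℂ) - 1) • ⟨_, h2⟩)) =
        ((d : ℂ) / 24) • (qExp 1 ⟨_, h1⟩ - ((p : ℂ) - 1) • qExp 1 ⟨_, h2⟩) by
          rw [map_smul, map_sub, map_smul])
    simp only [qExp_apply, Nat.cast_one, map_sub, PowerSeries.coeff_smul, smul_eq_mul, hr] at e
    exact e
  obtain ⟨G, hG⟩ := exists_cuspForm hf (by rw [hcoeff, coeff_eisTwo hp, if_pos rfl, hr0]; simp)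
  have hk : ∀ k, k ≠ 0 → qCoeff ⇑G k =
      ((d * sigP p k - eisensteinNumerator p * ((r k / 2 : ℕ) : ℤ) : ℤ) : ℂ) := by
    intro k hk
    obtain ⟨a, ha⟩ := hr2 k hk
    rw [qCoeff, hG, hcoeff, coeff_eisTwo hp, if_neg hk, ha, Nat.mul_div_cancel_left a two_pos]
    push_cast
    linear_combination (-(a : ℂ) / 12) * hcd
  have hint : G ∈ CuspForm.intLattice p 2 := by
    refine Quick.mem_intLattice_iff.2 fun k ↦ ?_
    rcases eq_or_ne k 0 with rfl | h
    · exact ⟨0, by rw [Quick.qCoeff_zero_index, Int.cast_zero]⟩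
    · exact ⟨_, hk k h⟩
  refine ⟨⟨G, hint⟩, d, hcop, fun k hk0 ↦ ⟨-((r k / 2 : ℕ) : ℤ), ?_⟩⟩
  have e : coefZ p ⟨G, hint⟩ k =
      d * sigP p k - eisensteinNumerator p * ((r k / 2 : ℕ) : ℤ) := by
    apply Int.cast_injective (α := ℂ)
    rw [← qCoeff_eq_coefZ]
    exact hk k hk0
  rw [e]
  ring

/-- The numerator divides the value at the Eisenstein system of anything killing the lattice. -/
theorem numerator_dvd_evalEis (hp2 : p ≠ 2) {P : HeckeAlg} (hP : heckePhi p P = 0) :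
    (eisensteinNumerator p : ℤ) ∣ evalEis p P := by
  have hp : p.Prime := Fact.out
  obtain ⟨g₀, d, hcop, hg₀⟩ := exists_congr_form (p := p) hp2
  set n : ℤ := (eisensteinNumerator p : ℤ)
  suffices h : ∀ Q : HeckeAlg, ∀ k, k ≠ 0 →
      n ∣ coefZ p (act p Q g₀) k - evalEis p Q * (d * sigP p k) by
    have h1 := h P 1 one_ne_zero
    rw [show act p P g₀ = 0 by simp [act, hP]] at h1
    have h0 : coefZ p (0 : ↥(CuspForm.intLattice p 2)) 1 = 0 := (coefLin p 1).map_zero
    rw [h0, sigP_one hp, zero_sub, dvd_neg, Nat.cast_one, mul_one] at h1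
    exact (Int.isCoprime_iff_nat_coprime.2 (by simpa [n] using hcop.symm)).dvd_of_dvd_mul_right h1
  intro Q
  induction Q using MvPolynomial.induction_on with
  | C a =>
    intro k hk
    have e : coefZ p (act p (MvPolynomial.C a) g₀) k = a * coefZ p g₀ k := by
      rw [act_C]
      exact (coefLin p k).map_smul a g₀
    rw [e, evalEis_C, ← mul_sub]
    exact (hg₀ k hk).mul_left a
  | add P Q hP hQ =>
    intro k hk
    have e : coefZ p (act p (P + Q) g₀) k = coefZ p (act p P g₀) k + coefZ p (act p Q g₀) k := by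
      rw [act_add]
      exact (coefLin p k).map_add _ _
    rw [e, map_add, add_mul, add_sub_add_comm]
    exact dvd_add (hP k hk) (hQ k hk)
  | mul_X P ℓ hP =>
    intro k hk
    rw [mul_comm P, act_mul, coefZ_act_X, map_mul, evalEis_X]
    have hrec := sigP_mul_prime (p := p) hp ℓ.2 hk
    by_cases hc : (ℓ : ℕ) ∣ k ∧ (ℓ : ℕ) ≠ p
    · have hk' : k / (ℓ : ℕ) ≠ 0 :=
        Nat.div_ne_zero_iff.2 ⟨ℓ.2.ne_zero, Nat.le_of_dvd (Nat.pos_of_ne_zero hk) hc.1⟩
      rw [if_pos hc] at hrec ⊢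
      have h := dvd_add (hP (k * ℓ) (mul_ne_zero hk ℓ.2.ne_zero))
        ((hP (k / (ℓ : ℕ)) hk').mul_left ((ℓ : ℕ) : ℤ))
      refine Eq.mp (congrArg (n ∣ ·) ?_) h
      linear_combination -((evalEis p P) * d) * hrec
    · rw [if_neg hc, add_zero] at hrec ⊢
      have h := hP (k * ℓ) (mul_ne_zero hk ℓ.2.ne_zero)
      refine Eq.mp (congrArg (n ∣ ·) ?_) h
      linear_combination -((evalEis p P) * d) * hrec

end FLTAgent.EisIndex
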