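import Fermat.Agent.EisIndex.Descent

/-!
The upper bound for the Eisenstein index: a form congruent to `∑ σ'(n) qⁿ` modulo a prime power
`ℓ ^ v` forces `ℓ ^ v ∣ (p - 1)/gcd(p - 1, 12)`.
-/

set_option autoImplicit false

noncomputable section

namespace FLTAgent.EisIndex

open UpperHalfPlane hiding I
open CongruenceSubgroup ModularForm PowerSeries
open scoped MatrixGroups

variable {p : ℕ} [Fact p.Prime] {m : ℕ} {f : ℍ → ℂ} {A D : ℤ⟦X⟧}

theorem EisCong.hasSeries_sub (h : EisCong p m f A D) :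
    HasSeries (eisTwo p - (24 : ℂ) • f) (C ((p : ℤ) - 1) + C 24 * C (m : ℤ) * D) := by
  have hp : p.Prime := Fact.out
  refine hasSeries_of_coeff fun k ↦ ?_
  have h1 := mem_qFnH_one (p := p) (isMF_eisTwo (q := p))
  have h2 := mem_qFnH_one h.isMF
  have e : qExpansion 1 (eisTwo p - (24 : ℂ) • f) =
      qExpansion 1 (eisTwo p) - (24 : ℂ) • qExpansion 1 f := by
    have := map_sub (qExp 1) ⟨_, h1⟩ ((24 : ℂ) • ⟨_, h2⟩)
    rw [map_smul] at this
    simp only [qExp_apply, Nat.cast_one] at this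
    exact this
  rw [e, map_sub, PowerSeries.coeff_smul, (hasSeries_eisTwo hp).coeff_eq, h.series.coeff_eq,
    mul_assoc, ← h.congr]
  simp only [map_add, map_sub, coeff_C_mul, coeff_sigSeries, smul_eq_mul]
  push_cast
  ring

/-- An Eisenstein congruence at `ℓ` with `p ≡ -1` modulo a suitable power of `ℓ` is impossible. -/
theorem EisCong.false_of_descent (h : EisCong p m f A D) {q : ℕ} [Fact q.Prime]
    (h23 : q = 2 ∨ q = 3) {ℓ : ℕ} (hℓ : ℓ.Prime) {δ u : ℤ} (hδ : δ ≠ 0)
    (hu : ((p : ℤ) - 1) * kappa q = δ * u) (hm : δ * (ℓ : ℤ) ∣ 24 * (m : ℤ))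
    (hc : δ * (ℓ : ℤ) ∣ ((p : ℤ) - 1) * ((p : ℤ) + 1)) (hpu : ¬ (ℓ : ℤ) ∣ (p : ℤ) * u) :
    False := by
  have h0 : coeff 0 (C ((p : ℤ) - 1) + C 24 * C (m : ℤ) * D) = (p : ℤ) - 1 := by
    rw [map_add, coeff_C, if_pos rfl, mul_assoc (C (24 : ℤ)), coeff_C_mul, coeff_C_mul,
      h.coeff_zero_D, mul_zero, add_zero]
  refine descent_false h23 hℓ hδ (isMF_eisTwo.sub (h.isMF.smul 24)) h.hasSeries_sub
    (by rw [h0]; exact hu) (fun n hn ↦ ?_) (by rw [h0]; exact hc) hpu
  rw [map_add, coeff_C, if_neg hn, zero_add, mul_assoc (C (24 : ℤ)), coeff_C_mul, coeff_C_mul,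
    ← mul_assoc]
  exact hm.mul_right _

/-- The upper bound, one prime power at a time. -/
theorem EisCong.prime_pow_mul_gcd_dvd (hp5 : 5 ≤ p) {ℓ v : ℕ} (hℓ : ℓ.Prime) (hv : v ≠ 0)
    (h : EisCong p (ℓ ^ v) f A D) : ℓ ^ v * Nat.gcd (p - 1) 12 ∣ p - 1 := by
  have hp : p.Prime := Fact.out
  have hp2 : p ≠ 2 := by omega
  have hcast : ((p - 1 : ℕ) : ℤ) = (p : ℤ) - 1 := by omega
  have hℓm : (ℓ : ℤ) ∣ ((ℓ ^ v : ℕ) : ℤ) := by exact_mod_cast dvd_pow_self ℓ hv
  have hg : Nat.gcd (p - 1) 12 ∣ p - 1 := Nat.gcd_dvd_left _ _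
  have hg12 : Nat.gcd (p - 1) 12 ∣ 12 := Nat.gcd_dvd_right _ _
  have hℤ : ∀ {a : ℕ} {b : ℕ}, (a : ℤ) ∣ ((p : ℤ) - 1) → b = p - 1 → a ∣ b := by
    intro a b hab hb
    rw [hb, ← Int.natCast_dvd_natCast, hcast]
    exact hab
  have hA1 : ∀ {d : ℤ}, d ∣ 24 → d ∣ (p : ℤ) - 1 →
      ((ℓ ^ v : ℕ) : ℤ) * d ∣ ((p : ℤ) - 1) * (p + 1) * (1 - 10 * ((p : ℤ) - 1)) := by
    intro d h24 hdc
    have := h.dvd_eisenstein 1 one_ne_zero h24 hdc
    rwa [sigP_one hp, ArithmeticFunction.sigma_one, Nat.cast_one, mul_one] at this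
  by_cases h5 : 5 ≤ ℓ
  · by_cases hℓp : (ℓ : ℤ) ∣ (p : ℤ) + 1
    · exfalso
      have : Fact (Nat.Prime 2) := ⟨Nat.prime_two⟩
      refine h.false_of_descent (q := 2) (Or.inl rfl) hℓ one_ne_zero
        (u := 24 * ((p : ℤ) - 1)) ?_ (by rw [one_mul]; exact hℓm.mul_left _)
        (by rw [one_mul]; exact hℓp.mul_left _) ?_
      · simp [kappa, mul_comm]
      · intro hd
        have hℓ' := Nat.prime_iff_prime_int.1 hℓ
        have h2 : ¬ (ℓ : ℤ) ∣ 2 := fun h ↦ by
          have := Int.le_of_dvd two_pos h; omega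
        rcases hℓ'.dvd_or_dvd hd with hd | hd
        · have := dvd_sub hℓp hd
          rw [add_sub_cancel_left] at this
          exact hℓ'.not_dvd_one this
        · rcases hℓ'.dvd_or_dvd hd with hd | hd
          · have h24 : ℓ ∣ 24 := by exact_mod_cast hd
            have := Nat.le_of_dvd (by norm_num) h24
            interval_cases ℓ <;> first | (norm_num at hℓ; done) | (norm_num at h24; done)
          · exact h2 (by simpa using dvd_sub hℓp hd)
    · have h2' := h.dvd_eisenstein 2 two_ne_zero (d := 1) (one_dvd _) (one_dvd _)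
      rw [sigP_two hp2, sigma_three_two, mul_one] at h2'
      have h1' := hA1 (d := 1) (one_dvd _) (one_dvd _)
      rw [mul_one] at h1'
      have key : ((ℓ ^ v : ℕ) : ℤ) ∣ ((p : ℤ) - 1) * ((p + 1) * 6) := by
        have := dvd_sub (h1'.mul_left 9) h2'
        push_cast at this ⊢
        ring_nf at this ⊢
        exact this
      have hcop : IsCoprime ((ℓ ^ v : ℕ) : ℤ) (((p : ℤ) + 1) * 6) := by
        push_cast
        refine IsCoprime.pow_left (IsCoprime.mul_right ?_ ?_)
        · exact ((Nat.prime_iff_prime_int.1 hℓ).coprime_iff_not_dvd).2 hℓp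
        · refine ((Nat.prime_iff_prime_int.1 hℓ).coprime_iff_not_dvd).2 fun hd ↦ ?_
          have h6 : ℓ ∣ 6 := by exact_mod_cast hd
          have := Nat.le_of_dvd (by norm_num) h6
          interval_cases ℓ <;> first | (norm_num at hℓ; done) | (norm_num at h6; done)
      refine Nat.Coprime.mul_dvd_of_dvd_of_dvd ?_ (hℤ (hcop.dvd_of_dvd_mul_right key) rfl) hg
      refine Nat.Coprime.coprime_dvd_right hg12 (Nat.Coprime.pow_left _ ?_)
      refine (hℓ.coprime_iff_not_dvd).2 fun hd ↦ ?_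
      have := Nat.le_of_dvd (by norm_num) hd
      interval_cases ℓ <;> first | (norm_num at hℓ; done) | (norm_num at hd; done)
  · have h23 : ℓ = 2 ∨ ℓ = 3 := by
      have := hℓ.two_le
      interval_cases ℓ <;> first | exact Or.inl rfl | exact Or.inr rfl | (norm_num at hℓ)
    rcases h23 with rfl | rfl
    · -- `ℓ = 2`
      have hodd : p % 2 = 1 := Nat.Prime.eq_two_or_odd hp |>.resolve_left hp2
      have h8 : p % 8 = 1 ∨ (p % 8 = 3 ∨ p % 8 = 5) ∨ p % 8 = 7 := by omega
      rcases h8 with h8 | h8 | h8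
      · have key := hA1 (d := 8) (by norm_num) (by omega)
        have hk : ((2 ^ v * 4 : ℕ) : ℤ) ∣
            ((p : ℤ) - 1) * ((((p : ℤ) + 1) / 2) * (1 - 10 * ((p : ℤ) - 1))) := by
          have he : ((p : ℤ) + 1) = 2 * (((p : ℤ) + 1) / 2) := by omega
          rw [he, show ((2 ^ v : ℕ) : ℤ) * 8 = 2 * ((2 ^ v * 4 : ℕ) : ℤ) by push_cast; ring,
            show ((p : ℤ) - 1) * (2 * (((p : ℤ) + 1) / 2)) * (1 - 10 * ((p : ℤ) - 1)) =
              2 * (((p : ℤ) - 1) * ((((p : ℤ) + 1) / 2) * (1 - 10 * ((p : ℤ) - 1)))) by ring] at key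
          exact Int.dvd_of_mul_dvd_mul_left two_ne_zero key
        have hcop : IsCoprime ((2 ^ v * 4 : ℕ) : ℤ)
            ((((p : ℤ) + 1) / 2) * (1 - 10 * ((p : ℤ) - 1))) := by
          have h2 : ∀ x : ℤ, ¬ (2 : ℤ) ∣ x → IsCoprime ((2 ^ v * 4 : ℕ) : ℤ) x := by
            intro x hx
            have := (Int.prime_two.coprime_iff_not_dvd).2 hx
            rw [show ((2 ^ v * 4 : ℕ) : ℤ) = (2 : ℤ) ^ (v + 2) by push_cast; ring]
            exact this.pow_left
          exact (h2 _ (by omega)).mul_right (h2 _ (by omega))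
        have h4 := hℤ (hcop.dvd_of_dvd_mul_right hk) rfl
        refine dvd_trans ?_ (Nat.Coprime.mul_dvd_of_dvd_of_dvd
          (?_ : Nat.Coprime (2 ^ v * 4) (Nat.gcd (p - 1) 3)) h4 (Nat.gcd_dvd_left _ _))
        · rw [mul_assoc]
          refine Nat.mul_dvd_mul_left _ ?_
          rw [show (12 : ℕ) = 4 * 3 by norm_num]
          exact (Nat.gcd_mul_right_dvd_mul_gcd _ _ _).trans (Nat.mul_dvd_mul_right (Nat.gcd_dvd_right _ _) _)
        · refine Nat.Coprime.coprime_dvd_right (Nat.gcd_dvd_right _ _) ?_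
          rw [show 2 ^ v * 4 = 2 ^ (v + 2) by ring]
          exact Nat.Coprime.pow_left _ (by norm_num)
      · exfalso
        have key := h.dvd_two hp2 (dvd_pow_self 2 hv)
        obtain ⟨k, r, hr, hk⟩ : ∃ k r : ℤ, (r = 3 ∨ r = 5) ∧ (p : ℤ) = 8 * k + r := by
          rcases h8 with h8 | h8
          · exact ⟨(p / 8 : ℕ), 3, Or.inl rfl, by omega⟩
          · exact ⟨(p / 8 : ℕ), 5, Or.inr rfl, by omega⟩
        rw [hk] at key
        rcases hr with rfl | rfl
        · rw [show (8 * k + 3 + 1) * (8 * k + 3 - 1) * (15 * (8 * k + 3 - 1) - 1) =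
            16 * ((4 * k ^ 2 + 3 * k) * (15 * (8 * k + 2) - 1) + 60 * k) + 232 by ring] at key
          omega
        · rw [show (8 * k + 5 + 1) * (8 * k + 5 - 1) * (15 * (8 * k + 5 - 1) - 1) =
            16 * ((4 * k ^ 2 + 5 * k) * (15 * (8 * k + 4) - 1) + 180 * k) + 1416 by ring] at key
          omega
      · exfalso
        have : Fact (Nat.Prime 3) := ⟨Nat.prime_three⟩
        refine h.false_of_descent (q := 3) (Or.inr rfl) hℓ (δ := 8) (by norm_num)
          (u := 3 * (((p : ℤ) - 1) / 2)) ?_ ?_ ?_ ?_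
        · simp only [kappa]
          norm_num
          omega
        · have := mul_dvd_mul (show (8 : ℤ) ∣ 24 by norm_num) hℓm
          simpa using this
        · have := mul_dvd_mul (show (2 : ℤ) ∣ (p : ℤ) - 1 by omega)
            (show (8 : ℤ) ∣ (p : ℤ) + 1 by omega)
          simpa [mul_comm] using this
        · intro hd
          push_cast at hd
          rcases Int.prime_two.dvd_or_dvd hd with hd | hd <;> omega
    · -- `ℓ = 3`
      have h0 : p % 3 ≠ 0 := fun h0 ↦ by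
        have := (Nat.prime_dvd_prime_iff_eq Nat.prime_three hp).1 (Nat.dvd_of_mod_eq_zero h0)
        omega
      by_cases h1 : p % 3 = 1
      · have key := hA1 (d := 3) (by norm_num) (by omega)
        have hcop : IsCoprime ((3 ^ v * 3 : ℕ) : ℤ)
            (((p : ℤ) + 1) * (1 - 10 * ((p : ℤ) - 1))) := by
          have h3 : ∀ x : ℤ, ¬ (3 : ℤ) ∣ x → IsCoprime ((3 ^ v * 3 : ℕ) : ℤ) x := by
            intro x hx
            have := (Int.prime_three.coprime_iff_not_dvd).2 hx
            rw [show ((3 ^ v * 3 : ℕ) : ℤ) = (3 : ℤ) ^ (v + 1) by push_cast; ring]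
            exact this.pow_left
          exact (h3 _ (by omega)).mul_right (h3 _ (by omega))
        have hk : ((3 ^ v * 3 : ℕ) : ℤ) ∣
            ((p : ℤ) - 1) * (((p : ℤ) + 1) * (1 - 10 * ((p : ℤ) - 1))) := by
          push_cast at key ⊢
          rwa [← mul_assoc]
        have h4 := hℤ (hcop.dvd_of_dvd_mul_right hk) rfl
        refine dvd_trans ?_ (Nat.Coprime.mul_dvd_of_dvd_of_dvd
          (?_ : Nat.Coprime (3 ^ v * 3) (Nat.gcd (p - 1) 4)) h4 (Nat.gcd_dvd_left _ _))
        · rw [mul_assoc]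
          refine Nat.mul_dvd_mul_left _ ?_
          rw [show (12 : ℕ) = 3 * 4 by norm_num]
          exact (Nat.gcd_mul_right_dvd_mul_gcd _ _ _).trans (Nat.mul_dvd_mul_right (Nat.gcd_dvd_right _ _) _)
        · refine Nat.Coprime.coprime_dvd_right (Nat.gcd_dvd_right _ _) ?_
          rw [show 3 ^ v * 3 = 3 ^ (v + 1) by ring]
          exact Nat.Coprime.pow_left _ (by norm_num)
      · exfalso
        by_cases h9 : (9 : ℤ) ∣ (p : ℤ) + 1
        · have : Fact (Nat.Prime 2) := ⟨Nat.prime_two⟩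
          refine h.false_of_descent (q := 2) (Or.inl rfl) hℓ (δ := 3) (by norm_num)
            (u := 8 * ((p : ℤ) - 1)) ?_ ?_ ?_ ?_
          · simp only [kappa, if_true]
            ring
          · exact mul_dvd_mul (by norm_num) hℓm
          · exact dvd_mul_of_dvd_right (by simpa using h9) _
          · intro hd
            push_cast at hd
            rcases Int.prime_three.dvd_or_dvd hd with hd | hd <;> omega
        · have key := h.dvd_one
          have h12 : (9 : ℤ) ∣ ((p : ℤ) + 1) * (((p : ℤ) - 1) * (5 * ((p : ℤ) - 1) - 1)) := by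
            rw [← mul_assoc]
            refine dvd_trans ?_ key
            exact dvd_trans (show (9 : ℤ) ∣ 12 * 3 by norm_num) (mul_dvd_mul_left 12 hℓm)
          have hcop : IsCoprime (9 : ℤ) (((p : ℤ) - 1) * (5 * ((p : ℤ) - 1) - 1)) := by
            rw [show (9 : ℤ) = 3 ^ 2 by norm_num]
            exact (((Int.prime_three.coprime_iff_not_dvd).2 (by omega)).mul_right
              ((Int.prime_three.coprime_iff_not_dvd).2 (by omega))).pow_left
          exact h9 (hcop.dvd_of_dvd_mul_right h12)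

end FLTAgent.EisIndex
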