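import Fermat.Agent.EisIndex.Lower
import Fermat.Agent.EisIndex.Upper
import Fermat.Agent.Quick.WeightTwoVanishing

/-!
The index of the Eisenstein ideal in the Hecke algebra of weight two and prime level.
-/

set_option autoImplicit false

noncomputable section

namespace FLTAgent.EisIndex

open CongruenceSubgroup ModularFormClass ModularCurve

variable {p : ℕ} [Fact p.Prime]

/-- A prime power killing all relations divides the numerator. -/
theorem prime_pow_dvd_numerator (hp5 : 5 ≤ p) {ℓ v : ℕ} (hℓ : ℓ.Prime) (hv : v ≠ 0)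
    (h : ∀ P : HeckeAlg, heckePhi p P = 0 → ((ℓ ^ v : ℕ) : ℤ) ∣ evalEis p P) :
    ℓ ^ v ∣ eisensteinNumerator p := by
  have hp : p.Prime := Fact.out
  let χ : HeckeAlg →+* ZMod (ℓ ^ v) := (Int.castRingHom _).comp (evalEis p)
  have hker : RingHom.ker (heckePhi p) ≤ RingHom.ker χ := fun P hP ↦
    RingHom.mem_ker.2 ((ZMod.intCast_zmod_eq_zero_iff_dvd _ _).2 (h P (RingHom.mem_ker.1 hP)))
  let ψ : ↥(CuspForm.heckeLatticeAlgebra p ∅) →+* ZMod (ℓ ^ v) :=
    (heckePhi p).liftOfSurjective heckePhi_surjective ⟨χ, hker⟩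
  have hψ : ∀ P, ψ (heckePhi p P) = ((evalEis p P : ℤ) : ZMod (ℓ ^ v)) := fun P ↦
    (heckePhi p).liftOfSurjective_comp_apply heckePhi_surjective ⟨χ, hker⟩ P
  obtain ⟨α, hα⟩ := Module.projective_lifting_property
    (Int.castRingHom (ZMod (ℓ ^ v))).toAddMonoidHom.toIntLinearMap ψ.toAddMonoidHom.toIntLinearMap
    (ZMod.intCast_surjective)
  obtain ⟨g, hg⟩ := pairing_surjective α
  have hcong : ∀ k, k ≠ 0 → ((ℓ ^ v : ℕ) : ℤ) ∣ (sigP p k : ℤ) - coefZ p g k := by
    intro k hk
    obtain ⟨P, hP, hPg⟩ := exists_word (p := p) k hk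
    rw [← ZMod.intCast_zmod_eq_zero_iff_dvd, Int.cast_sub, ← hPg, ← pairing_apply, hg, ← hP, ← hψ,
      sub_eq_zero]
    exact (LinearMap.congr_fun hα (heckePhi p P)).symm
  let A : PowerSeries ℤ := PowerSeries.mk fun k ↦ coefZ p g k
  let D : PowerSeries ℤ := PowerSeries.mk fun k ↦
    (((if k = 0 then 0 else (sigP p k : ℤ)) - coefZ p g k) / ((ℓ ^ v : ℕ) : ℤ))
  have hE : EisCong p (ℓ ^ v) ⇑(g : CuspForm (Gamma0 p) 2) A D := by
    refine ⟨isMF_cuspForm _, hasSeries_of_coeff fun k ↦ ?_, ?_, ?_⟩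
    · rw [PowerSeries.coeff_mk]
      exact qCoeff_eq_coefZ g k
    · rw [PowerSeries.coeff_mk, coefZ_zero_index]
    · ext k
      rw [map_sub, coeff_sigSeries, PowerSeries.coeff_C_mul, PowerSeries.coeff_mk,
        PowerSeries.coeff_mk, Int.mul_ediv_cancel']
      rcases eq_or_ne k 0 with rfl | hk
      · simp [coefZ_zero_index]
      · rw [if_neg hk]
        exact hcong k hk
  have h1 := hE.prime_pow_mul_gcd_dvd hp5 hℓ hv
  have hn : eisensteinNumerator p * Nat.gcd (p - 1) 12 = p - 1 :=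
    Nat.div_mul_cancel (Nat.gcd_dvd_left _ _)
  refine Nat.dvd_of_mul_dvd_mul_right
    (Nat.gcd_pos_of_pos_right (p - 1) (show 0 < 12 by norm_num)) ?_
  rwa [hn]

omit [Fact p.Prime] in
theorem sub_C_evalEis_mem (P : HeckeAlg) :
    P - MvPolynomial.C (evalEis p P) ∈ eisensteinIdeal p := by
  rw [eisensteinIdeal, mem_eigenIdeal_iff, map_sub, MvPolynomial.aeval_C]
  simp [evalEis]

omit [Fact p.Prime] in
theorem evalEis_of_mem {P : HeckeAlg} (hP : P ∈ eisensteinIdeal p) : evalEis p P = 0 :=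
  (mem_eigenIdeal_iff _ _).1 hP

theorem numerator_mem_map (hp5 : 5 ≤ p) :
    heckePhi p (MvPolynomial.C (eisensteinNumerator p : ℤ)) ∈
      Ideal.map (heckePhi p) (eisensteinIdeal p) := by
  set L : Ideal ℤ := (Ideal.map (heckePhi p) (eisensteinIdeal p)).comap
    ((heckePhi p).comp MvPolynomial.C) with hL
  obtain ⟨D, hD⟩ := Submodule.IsPrincipal.principal (S := L)
  suffices h : D ∣ (eisensteinNumerator p : ℤ) by
    have : (eisensteinNumerator p : ℤ) ∈ L := by
      rw [hD]; exact Ideal.mem_span_singleton.2 h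
    exact Ideal.mem_comap.1 this
  have hmem : ∀ P : HeckeAlg, heckePhi p P = 0 → D ∣ evalEis p P := by
    intro P hP
    refine Ideal.mem_span_singleton.1 ?_
    have : evalEis p P ∈ L := by
      refine Ideal.mem_comap.2 ?_
      have h := Ideal.mem_map_of_mem (heckePhi p) (sub_C_evalEis_mem (p := p) P)
      rw [map_sub, hP, zero_sub, neg_mem_iff] at h
      exact h
    rwa [hD] at this
  have key : ∀ ℓ v : ℕ, ℓ.Prime → ℓ ^ v ∣ D.natAbs → ℓ ^ v ∣ eisensteinNumerator p := by
    intro ℓ v hℓ hd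
    rcases eq_or_ne v 0 with rfl | hv
    · simp
    · refine prime_pow_dvd_numerator hp5 hℓ hv fun P hP ↦ ?_
      exact (Int.natCast_dvd.2 hd).trans (hmem P hP)
  rw [← Int.natAbs_dvd, Int.natCast_dvd_natCast]
  exact (Nat.dvd_iff_prime_pow_dvd_dvd _ _).2 key

/-- The index of the Eisenstein ideal for `p ≥ 5`. -/
theorem card_quotient_of_five_le (hp5 : 5 ≤ p) :
    Nat.card (↥(CuspForm.heckeLatticeAlgebra p ∅) ⧸ Ideal.map (heckePhi p) (eisensteinIdeal p)) =
      eisensteinNumerator p := by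
  have hp2 : p ≠ 2 := by omega
  set n := eisensteinNumerator p with hn
  let χ : HeckeAlg →+* ZMod n := (Int.castRingHom _).comp (evalEis p)
  have hker : RingHom.ker (heckePhi p) ≤ RingHom.ker χ := fun P hP ↦
    RingHom.mem_ker.2 ((ZMod.intCast_zmod_eq_zero_iff_dvd _ _).2
      (numerator_dvd_evalEis hp2 (RingHom.mem_ker.1 hP)))
  let ψ : ↥(CuspForm.heckeLatticeAlgebra p ∅) →+* ZMod n :=
    (heckePhi p).liftOfSurjective heckePhi_surjective ⟨χ, hker⟩
  have hψ : ∀ P, ψ (heckePhi p P) = ((evalEis p P : ℤ) : ZMod n) := fun P ↦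
    (heckePhi p).liftOfSurjective_comp_apply heckePhi_surjective ⟨χ, hker⟩ P
  have hsurj : Function.Surjective ψ := fun x ↦ by
    obtain ⟨z, rfl⟩ := ZMod.intCast_surjective x
    exact ⟨heckePhi p (MvPolynomial.C z), by rw [hψ, evalEis_C]⟩
  have he : RingHom.ker ψ = Ideal.map (heckePhi p) (eisensteinIdeal p) := by
    refine le_antisymm (fun t ht ↦ ?_) (Ideal.map_le_iff_le_comap.2 fun P hP ↦ ?_)
    · obtain ⟨P, rfl⟩ := heckePhi_surjective t
      rw [RingHom.mem_ker, hψ, ZMod.intCast_zmod_eq_zero_iff_dvd] at ht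
      obtain ⟨a, ha⟩ := ht
      have e : P = (P - MvPolynomial.C (evalEis p P)) +
          MvPolynomial.C a * MvPolynomial.C (n : ℤ) := by
        rw [← map_mul, mul_comm a, ← ha, sub_add_cancel]
      rw [e, map_add, map_mul]
      exact add_mem (Ideal.mem_map_of_mem _ (sub_C_evalEis_mem P))
        (Ideal.mul_mem_left _ _ (numerator_mem_map hp5))
    · rw [Ideal.mem_comap, RingHom.mem_ker, hψ, evalEis_of_mem hP, Int.cast_zero]
  rw [Nat.card_congr ((Ideal.quotEquivOfEq he.symm).trans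
    (RingHom.quotientKerEquivOfSurjective hsurj)).toEquiv, Nat.card_zmod]

/-- In levels two and three there are no cusp forms. -/
theorem card_quotient_of_small (hp : p = 2 ∨ p = 3) :
    Nat.card (↥(CuspForm.heckeLatticeAlgebra p ∅) ⧸ Ideal.map (heckePhi p) (eisensteinIdeal p)) =
      eisensteinNumerator p := by
  have h0 : ∀ f : CuspForm (Gamma0 p) 2, f = 0 := fun f ↦
    Quick.cuspForm_eq_zero_of_small_index f (by
      rw [index_gamma0_prime Fact.out]
      rcases hp with rfl | rfl <;> decide)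
  have : Subsingleton ↥(CuspForm.intLattice p 2) :=
    ⟨fun a b ↦ Subtype.ext ((h0 _).trans (h0 _).symm)⟩
  have hT : Subsingleton ↥(CuspForm.heckeLatticeAlgebra p ∅) :=
    ⟨fun a b ↦ Subtype.ext (LinearMap.ext fun g ↦ Subsingleton.elim _ _)⟩
  have : Subsingleton (↥(CuspForm.heckeLatticeAlgebra p ∅) ⧸
      Ideal.map (heckePhi p) (eisensteinIdeal p)) :=
    Ideal.Quotient.mk_surjective.subsingleton
  rw [Nat.card_of_subsingleton (Ideal.Quotient.mk _ 0)]
  rcases hp with rfl | rfl <;> rfl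

/-- The index of the Eisenstein ideal. -/
theorem card_quotient_eisenstein :
    Nat.card (↥(CuspForm.heckeLatticeAlgebra p ∅) ⧸ Ideal.map (heckePhi p) (eisensteinIdeal p)) =
      eisensteinNumerator p := by
  have hp : p.Prime := Fact.out
  rcases Nat.lt_or_ge p 5 with h | h
  · refine card_quotient_of_small ?_
    have := hp.two_le
    have h4 : p ≠ 4 := by rintro rfl; norm_num at hp
    omega
  · exact card_quotient_of_five_le h

end FLTAgent.EisIndex
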