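import Fermat.Agent.EisIndex.Fricke
import Mathlib.NumberTheory.ModularForms.LevelOne.DimensionFormula

/-!
Scaled translates of weight two forms of prime level, and the trace to level one of a product of two
of them, which is a multiple of `E₄`.
-/

set_option autoImplicit false

noncomputable section

namespace FLTAgent.EisIndex

open UpperHalfPlane hiding I
open Matrix.SpecialLinearGroup CongruenceSubgroup ModularGroup ModularForm
open scoped MatrixGroups ModularForm Manifold ArithmeticFunction.sigma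

variable {p : ℕ} [Fact p.Prime]

instance : NeZero p := ⟨(Fact.out : p.Prime).ne_zero⟩

/-- The translates of a weight two form, scaled by `p`. -/
def conjFam (p : ℕ) [NeZero p] (f : ℍ → ℂ) : Option (Fin p) → ℍ → ℂ
  | none => (p : ℂ) • f
  | some j => fun τ ↦ -heckeU 2 p f (shiftDiv p j τ)

variable {f g : ℍ → ℂ}

theorem conjFam_eq (hf : Dim.IsMF (Gamma0 p) 2 f) (o : Option (Fin p)) :
    conjFam p f o = (p : ℂ) • transl hf.inv (cosetEquiv p o) := by
  cases o with
  | none => rw [cosetEquiv_apply, transl_cosetRep_none]; rfl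
  | some j =>
    funext τ
    rw [cosetEquiv_apply, transl_cosetRep_some, Pi.smul_apply, slash_ST_eq hf, smul_eq_mul,
      mul_neg, ← mul_assoc, mul_inv_cancel₀ (Nat.cast_ne_zero.2 (NeZero.ne p)), one_mul]
    rfl

theorem conjFam_mem (hf : Dim.IsMF (Gamma0 p) 2 f) (o : Option (Fin p)) :
    conjFam p f o ∈ qFnH p := by
  cases o with
  | none => exact (qFnH p).smul_mem (mem_qFnH_of_one (mem_qFnH_one hf) p) _
  | some j =>
    have h := comp_shiftDiv_mem (h := p) (mem_qFnH_one (isMF_heckeU hf)) (j : ℕ)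
      (mdifferentiable_comp_shiftDiv (isMF_heckeU hf).holo j)
    exact (qFnH p).neg_mem h

theorem qExp_conjFam_none (hf : Dim.IsMF (Gamma0 p) 2 f) (n : ℕ) :
    (qExp p ⟨_, conjFam_mem hf none⟩).coeff n =
      p * if p ∣ n then (qExpansion 1 f).coeff (n / p) else 0 := by
  have e : (⟨_, conjFam_mem hf none⟩ : qFnH p) =
      (p : ℂ) • ⟨f, mem_qFnH_of_one (mem_qFnH_one hf) p⟩ := rfl
  rw [e, map_smul, PowerSeries.coeff_smul, qExp_apply, qExpansion_coeff_of_one (mem_qFnH_one hf),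
    smul_eq_mul]

theorem qExp_conjFam_some (hf : Dim.IsMF (Gamma0 p) 2 f) (j : Fin p) (n : ℕ) :
    (qExp p ⟨_, conjFam_mem hf (some j)⟩).coeff n =
      -(zetaPow p j ^ n * (qExpansion 1 f).coeff (n * p)) := by
  have hU := mem_qFnH_one (isMF_heckeU hf)
  have hd := mdifferentiable_comp_shiftDiv (p := p) (isMF_heckeU hf).holo j
  have e : (⟨_, conjFam_mem hf (some j)⟩ : qFnH p) = -⟨_, comp_shiftDiv_mem hU j hd⟩ := rfl
  rw [e, map_neg, map_neg, qExp_apply, qExpansion_coeff_shiftDiv hU j hd,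
    coeff_heckeU (NeZero.ne p) (mem_qFnH_one hf)]

theorem exists_smul_E₄ {F : ℍ → ℂ} (hF : Dim.IsMF ⊤ 4 F) :
    ∃ c : ℂ, F = c • (E₄ : ℍ → ℂ) := by
  obtain ⟨v, -, hv⟩ := rank_eq_one_iff.1 levelOne_weight_four_rank_one
  obtain ⟨a, ha⟩ := hv (E₄ : ModularForm 𝒮ℒ 4)
  obtain ⟨b, hb⟩ := hv hF.toMF1
  have ha0 : a ≠ 0 := by
    rintro rfl
    rw [zero_smul] at ha
    exact EisensteinSeries.E_ne_zero _ ⟨2, rfl⟩ ha.symm
  refine ⟨b / a, ?_⟩
  have : hF.toMF1 = (b / a) • (E₄ : ModularForm 𝒮ℒ 4) := by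
    rw [← hb, ← ha, smul_smul, div_mul_cancel₀ b ha0]
  exact congrArg DFunLike.coe this

theorem coeff_E₄ (n : ℕ) :
    (qExpansion 1 (E₄ : ℍ → ℂ)).coeff n = if n = 0 then 1 else 240 * (σ 3 n : ℂ) := by
  rw [EisensteinSeries.E_qExpansion_coeff _ ⟨2, rfl⟩]
  split_ifs with h
  · rfl
  · norm_num [show bernoulli 4 = -1 / 30 by decide +kernel]

theorem sum_zetaPow_pow_mul (n : ℕ) (x : ℂ) :
    ∑ j : Fin p, zetaPow p j ^ (p * n) * x = p * x := by
  simp [pow_mul, zetaPow_pow_self]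

/-- The trace of a product of two weight two forms of prime level is `λ E₄`. -/
theorem trace_product (hf : Dim.IsMF (Gamma0 p) 2 f) (hg : Dim.IsMF (Gamma0 p) 2 g) (n : ℕ) :
    (p : ℂ) * (qExpansion 1 f * qExpansion 1 g).coeff n +
      (qExpansion 1 (heckeU 2 p f) * qExpansion 1 (heckeU 2 p g)).coeff (p * n) =
    (p + 1) * ((qExpansion 1 f).coeff 0 * (qExpansion 1 g).coeff 0) *
      (if n = 0 then 1 else 240 * (σ 3 n : ℂ)) := by
  classical
  let : Fintype (Dim.Cosets0 p) := Fintype.ofEquiv _ (cosetEquiv p)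
  let φ : ℍ → ℂ := ∑ q : Dim.Cosets0 p, transl hf.inv q * transl hg.inv q
  have hφ : Dim.IsMF ⊤ 4 φ := by
    refine ⟨?_, fun A _ ↦ ?_, fun A ↦ ?_⟩
    · refine Finset.sum_induction _ (fun F : ℍ → ℂ ↦ MDiff F) (fun a b ha hb ↦ ha.add hb)
        mdifferentiable_const fun q _ ↦ ?_
      induction q using QuotientGroup.induction_on with
      | H x => exact (MDifferentiable.slash hf.holo _ _).mul (MDifferentiable.slash hg.holo _ _)
    · rw [SlashAction.sum_slash, show (4 : ℤ) = 2 + 2 by norm_num]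
      refine (Finset.sum_congr rfl fun q _ ↦ ?_).trans
        (Equiv.sum_comp (MulAction.toPerm A⁻¹) fun q ↦ transl hf.inv q * transl hg.inv q)
      rw [ModularForm.mul_slash_SL2, transl_slash, transl_slash]
      rfl
    · rw [SlashAction.sum_slash, show (4 : ℤ) = 2 + 2 by norm_num]
      refine Finset.sum_induction _ IsBoundedAtImInfty (fun a b ha hb ↦ ha.add hb)
        zero_form_isBoundedAtImInfty fun q _ ↦ ?_
      rw [ModularForm.mul_slash_SL2, transl_slash, transl_slash]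
      induction (A⁻¹ • q) using QuotientGroup.induction_on with
      | H x => exact (hf.bdd x⁻¹).mul (hg.bdd x⁻¹)
  obtain ⟨c, hc⟩ := exists_smul_E₄ hφ
  have hmemE : (E₄ : ℍ → ℂ) ∈ qFnH 1 :=
    mem_qFnH_one (p := 1) ((Dim.isMF_E4).mono le_top)
  let E : qFnH p := ⟨_, mem_qFnH_of_one hmemE p⟩
  let F : Option (Fin p) → qFnH p := fun o ↦ ⟨_, conjFam_mem hf o⟩ * ⟨_, conjFam_mem hg o⟩
  have hsum : ∑ o, F o = ((p : ℂ) ^ 2 * c) • E := by
    apply Subtype.ext
    rw [AddSubmonoidClass.coe_finsetSum]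
    show ∑ o, conjFam p f o * conjFam p g o = ((p : ℂ) ^ 2 * c) • (E₄ : ℍ → ℂ)
    simp only [conjFam_eq hf, conjFam_eq hg, smul_mul_smul_comm]
    rw [← Finset.smul_sum, Equiv.sum_comp (cosetEquiv p) fun q ↦ transl hf.inv q * transl hg.inv q,
      show (∑ q, transl hf.inv q * transl hg.inv q) = c • (E₄ : ℍ → ℂ) from hc, smul_smul, sq]
  have hsome : ∀ (j : Fin p) (n : ℕ), (qExp p (F (some j))).coeff n =
      zetaPow p j ^ n *
        (qExpansion 1 (heckeU 2 p f) * qExpansion 1 (heckeU 2 p g)).coeff n := by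
    intro j n
    have hU := mem_qFnH_one (isMF_heckeU hf)
    have hV := mem_qFnH_one (isMF_heckeU hg)
    have hd := mdifferentiable_comp_shiftDiv (p := p)
      ((isMF_heckeU hf).holo.mul (isMF_heckeU hg).holo) j
    have hUV : heckeU 2 p f * heckeU 2 p g ∈ qFnH 1 := (qFnH 1).mul_mem hU hV
    have e : F (some j) = ⟨_, comp_shiftDiv_mem hUV j hd⟩ :=
      Subtype.ext (funext fun τ ↦ neg_mul_neg _ _)
    rw [e, qExp_apply, qExpansion_coeff_shiftDiv hUV j hd,
      ← Nat.cast_one, ← qExp_apply (h := 1) ⟨_, hUV⟩,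
      show (⟨_, hUV⟩ : qFnH 1) = ⟨_, hU⟩ * ⟨_, hV⟩ from rfl, map_mul, qExp_apply, qExp_apply]
  have hnone : ∀ n : ℕ, (qExp p (F none)).coeff (p * n) =
      (p : ℂ) ^ 2 * (qExpansion 1 f * qExpansion 1 g).coeff n := by
    intro n
    have hF' := mem_qFnH_one hf
    have hG' := mem_qFnH_one hg
    have hfg : f * g ∈ qFnH 1 := (qFnH 1).mul_mem hF' hG'
    have e : F none = ((p : ℂ) ^ 2) • (⟨_, mem_qFnH_of_one hfg p⟩ : qFnH p) :=
      Subtype.ext (by
        show ((p : ℂ) • f) * ((p : ℂ) • g) = _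
        rw [smul_mul_smul_comm, sq]; rfl)
    rw [e, map_smul, PowerSeries.coeff_smul, qExp_apply, qExpansion_coeff_mul_of_one hfg,
      smul_eq_mul, ← Nat.cast_one, ← qExp_apply (h := 1) ⟨_, hfg⟩,
      show (⟨_, hfg⟩ : qFnH 1) = ⟨_, hF'⟩ * ⟨_, hG'⟩ from rfl, map_mul, qExp_apply, qExp_apply]
  have key : ∀ n : ℕ, (p : ℂ) * (qExpansion 1 f * qExpansion 1 g).coeff n +
      (qExpansion 1 (heckeU 2 p f) * qExpansion 1 (heckeU 2 p g)).coeff (p * n) =
      p * c * (if n = 0 then 1 else 240 * (σ 3 n : ℂ)) := by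
    intro n
    have h := congrArg (fun x ↦ (qExp p x).coeff (p * n)) hsum
    simp only [map_sum, Fintype.sum_option, map_smul, map_add,
      smul_eq_mul, hnone, hsome, sum_zetaPow_pow_mul] at h
    rw [show qExp p E = qExpansion (p : ℝ) (E₄ : ℍ → ℂ) from rfl,
      qExpansion_coeff_mul_of_one hmemE, coeff_E₄] at h
    apply mul_left_cancel₀ (Nat.cast_ne_zero.2 (NeZero.ne p) : (p : ℂ) ≠ 0)
    linear_combination h
  have h0 := key 0
  rw [if_pos rfl, mul_one, mul_zero, PowerSeries.coeff_zero_eq_constantCoeff, map_mul, map_mul,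
    ← PowerSeries.coeff_zero_eq_constantCoeff,
    coeff_heckeU (NeZero.ne p) (mem_qFnH_one hf), coeff_heckeU (NeZero.ne p) (mem_qFnH_one hg),
    zero_mul] at h0
  rw [key n, ← h0]
  ring

end FLTAgent.EisIndex
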